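import Fermat.Agent.EllTorsion.Count
import Fermat.Prelude.Def_GaloisRep_Residual
import Mathlib.FieldTheory.Galois.Infinite
import Mathlib.FieldTheory.KrullTopology

/-!
# Galois action on torsion: finite level, and descent of fixed points
-/

set_option autoImplicit false

open Polynomial WeierstrassCurve
open scoped WeierstrassCurve.Affine

namespace Fermat.Agent.EllTorsion

section General

variable {R S K : Type*} [CommRing R] [Field S] [Field K] [DecidableEq K] [Algebra R S]
  [Algebra R K] [Algebra S K] [IsScalarTower R S K] {W : WeierstrassCurve R}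

lemma smul_some (σ : K ≃ₐ[S] K) {x y : K} (h : (W⁄K).Nonsingular x y) :
    ∃ h' : (W⁄K).Nonsingular (σ x) (σ y),
      σ • Affine.Point.some x y h = Affine.Point.some (σ x) (σ y) h' :=
  ⟨(W.toAffine.baseChange_nonsingular σ.toAlgHom.injective x y).mpr h, rfl⟩

variable (S W K) in
/-- A finite extension of `S` in `K` whose fixing subgroup fixes all of `E[n]`. -/
theorem exists_finiteDimensional_fixing_torsion [Algebra.IsAlgebraic S K] [W.IsElliptic] {n : ℕ}
    (hn : n ≠ 0) :
    ∃ L : IntermediateField S K, FiniteDimensional S L ∧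
      ∀ σ : K ≃ₐ[S] K, (∀ x ∈ L, σ x = x) →
        ∀ T : Submodule.torsionBy ℤ (W⁄K).Point (n : ℤ), σ • T = T := by
  classical
  have := finite_torsionBy_baseChange W K hn
  let coords : (W⁄K).Point → Set K := fun P => match P with
    | .zero => ∅
    | .some x y _ => {x, y}
  let C : Set K := ⋃ T : Submodule.torsionBy ℤ (W⁄K).Point (n : ℤ), coords T
  have hC : C.Finite := Set.finite_iUnion fun T => by
    rcases hT : (T : (W⁄K).Point) with _ | ⟨x, y, h⟩
    · exact Set.finite_empty
    · exact (Set.finite_singleton y).insert x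
  have : Finite C := hC.to_subtype
  refine ⟨IntermediateField.adjoin S C, IntermediateField.finiteDimensional_adjoin
    fun x _ => Algebra.IsIntegral.isIntegral x, fun σ hσ T => Subtype.ext ?_⟩
  have hT : coords (T : (W⁄K).Point) ⊆ IntermediateField.adjoin S C :=
    fun z hz => IntermediateField.subset_adjoin S C (Set.mem_iUnion_of_mem T hz)
  show σ • (T : (W⁄K).Point) = T
  generalize (T : (W⁄K).Point) = P at hT
  cases P with
  | zero => rfl
  | some x y h =>
    obtain ⟨h', he⟩ := smul_some σ h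
    simp only [he, Affine.Point.some.injEq]
    exact ⟨hσ x (hT (by simp [coords])), hσ y (hT (by simp [coords]))⟩

variable (S W K) in
/-- The kernel of the action on `E[n]` is open in the Krull topology. -/
theorem isOpen_fixing_torsion [Algebra.IsAlgebraic S K] [W.IsElliptic] {n : ℕ} (hn : n ≠ 0) :
    IsOpen {σ : K ≃ₐ[S] K | ∀ T : Submodule.torsionBy ℤ (W⁄K).Point (n : ℤ), σ • T = T} := by
  obtain ⟨L, hL, hfix⟩ := exists_finiteDimensional_fixing_torsion S K W hn
  let H : Subgroup (K ≃ₐ[S] K) :=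
    { carrier := {σ | ∀ T : Submodule.torsionBy ℤ (W⁄K).Point (n : ℤ), σ • T = T}
      one_mem' := fun T => one_smul _ T
      mul_mem' := fun {a b} ha hb T => by rw [mul_smul, hb T, ha T]
      inv_mem' := fun {a} ha T => by conv_lhs => rw [← ha T, inv_smul_smul] }
  have hle : L.fixingSubgroup ≤ H := fun σ hσ =>
    hfix σ fun x hx => (IntermediateField.mem_fixingSubgroup_iff L σ).mp hσ x hx
  exact Subgroup.isOpen_mono hle L.fixingSubgroup_isOpen

/-- A Galois-fixed point comes from the base field. -/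
theorem exists_eq_baseChange_of_fixed [IsGalois S K] [DecidableEq S] (P : (W⁄K).Point)
    (hP : ∀ σ : K ≃ₐ[S] K, σ • P = P) :
    ∃ Q : (W⁄S).Point, Affine.Point.baseChange S K Q = P := by
  cases P with
  | zero => exact ⟨0, rfl⟩
  | some x y h =>
    have hfix : ∀ σ : K ≃ₐ[S] K, σ x = x ∧ σ y = y := fun σ => by
      obtain ⟨h', he⟩ := smul_some σ h
      exact Affine.Point.some.inj (he.symm.trans (hP σ))
    obtain ⟨x₀, hx⟩ := IntermediateField.mem_bot.mp
      ((InfiniteGalois.mem_bot_iff_fixed x).mpr fun σ => (hfix σ).1)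
    obtain ⟨y₀, hy⟩ := IntermediateField.mem_bot.mp
      ((InfiniteGalois.mem_bot_iff_fixed y).mpr fun σ => (hfix σ).2)
    subst hx hy
    exact ⟨Affine.Point.some x₀ y₀
      ((W.toAffine.baseChange_nonsingular (Algebra.ofId S K).injective x₀ y₀).mp h), rfl⟩

end General

section Rat

variable (W : WeierstrassCurve ℚ) [W.IsElliptic]

/-- `#E[n] = n²` over `ℚ̄`. -/
theorem natCard_torsionBy_rat {n : ℕ} (hn : n ≠ 0) :
    Nat.card (Submodule.torsionBy ℤ (W⁄(AlgebraicClosure ℚ)).Point (n : ℤ)) = n ^ 2 :=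
  natCard_torsionBy_baseChange W (AlgebraicClosure ℚ) n (Nat.cast_ne_zero.mpr hn)

theorem finite_torsionBy_rat {n : ℕ} (hn : n ≠ 0) :
    Finite (Submodule.torsionBy ℤ (W⁄(AlgebraicClosure ℚ)).Point (n : ℤ)) :=
  finite_torsionBy_baseChange W (AlgebraicClosure ℚ) hn

theorem finrank_torsionBy_rat (p : ℕ) [Fact p.Prime] :
    Module.finrank (ZMod p) (Submodule.torsionBy ℤ (W⁄(AlgebraicClosure ℚ)).Point (p : ℤ)) = 2 :=
  finrank_torsionBy_baseChange W (AlgebraicClosure ℚ) p
    (Nat.cast_ne_zero.mpr (Fact.out : p.Prime).ne_zero)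

theorem moduleFinite_torsionBy_rat (p : ℕ) [Fact p.Prime] :
    Module.Finite (ZMod p) (Submodule.torsionBy ℤ (W⁄(AlgebraicClosure ℚ)).Point (p : ℤ)) :=
  Module.finite_of_finrank_eq_succ (finrank_torsionBy_rat W p)

theorem galoisFactorsThroughFiniteLevel_galoisRepModuleEnd {n : ℕ} (hn : n ≠ 0) :
    GaloisFactorsThroughFiniteLevel
      (Affine.Point.galoisRepModuleEnd (K := AlgebraicClosure ℚ) ℚ W n) := by
  have : Algebra.IsAlgebraic ℚ (AlgebraicClosure ℚ) := AlgebraicClosure.isAlgebraic ℚ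
  obtain ⟨L, hL, h⟩ := exists_finiteDimensional_fixing_torsion ℚ (AlgebraicClosure ℚ) W hn
  exact ⟨L, hL, fun σ hσ => LinearMap.ext fun T => h σ hσ T⟩

/-- The mod-`p` representation of an elliptic curve over `ℚ` as a residual representation. -/
noncomputable def residualRep (p : ℕ) [Fact p.Prime] : ResidualGaloisRep (ZMod p) :=
  W.residualGaloisRepOf p (natCard_torsionBy_rat W (Fact.out : p.Prime).ne_zero)
    (galoisFactorsThroughFiniteLevel_galoisRepModuleEnd W (Fact.out : p.Prime).ne_zero)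

omit [W.IsElliptic] in
/-- A point of `E(ℚ̄)` fixed by Galois is rational. -/
theorem exists_rational_of_fixed (P : (W⁄(AlgebraicClosure ℚ)).Point)
    (hP : ∀ σ : AlgebraicClosure ℚ ≃ₐ[ℚ] AlgebraicClosure ℚ, σ • P = P) :
    ∃ Q : (W⁄ℚ).Point, Affine.Point.baseChange ℚ (AlgebraicClosure ℚ) Q = P :=
  have : Algebra.IsAlgebraic ℚ (AlgebraicClosure ℚ) := AlgebraicClosure.isAlgebraic ℚ
  have : IsAlgClosure ℚ (AlgebraicClosure ℚ) := ⟨inferInstance, inferInstance⟩
  have : Normal ℚ (AlgebraicClosure ℚ) := IsAlgClosure.normal ℚ (AlgebraicClosure ℚ)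
  have : Algebra.IsSeparable ℚ (AlgebraicClosure ℚ) :=
    Algebra.IsAlgebraic.isSeparable_of_perfectField
  have : IsGalois ℚ (AlgebraicClosure ℚ) := IsGalois.mk
  exists_eq_baseChange_of_fixed P hP

end Rat

end Fermat.Agent.EllTorsion
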