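import Fermat.Agent.EllTorsion.Mul
import Mathlib.Algebra.Module.Torsion.Basic
import Mathlib.Algebra.Module.ZMod
import Mathlib.Algebra.Field.ZMod
import Mathlib.FieldTheory.IsAlgClosed.AlgebraicClosure
import Mathlib.FieldTheory.Finiteness
import Mathlib.LinearAlgebra.Dimension.Constructions

/-!
# Number of torsion points and divisibility
-/

set_option autoImplicit false

open Polynomial WeierstrassCurve

namespace Fermat.Agent.EllTorsion

section Polys

variable {F : Type*} [Field F] (W : WeierstrassCurve.Affine F)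

/-- The polynomial whose roots are the abscissas of the `n`-division points of abscissa `c`. -/
noncomputable def divPoly (n : ℕ) (c : F) : F[X] :=
  W.Φ (n : ℤ) - C c * W.ΨSq (n : ℤ)

variable {W}

lemma natDegree_divPoly {n : ℕ} (hn : n ≠ 0) (c : F) : (divPoly W n c).natDegree = n ^ 2 := by
  have h1 : (W.Φ (n : ℤ)).natDegree = n ^ 2 := by rw [natDegree_Φ, Int.natAbs_natCast]
  have h2 : (C c * W.ΨSq (n : ℤ)).natDegree ≤ n ^ 2 - 1 :=
    (natDegree_C_mul_le _ _).trans ((natDegree_ΨSq_le _ _).trans (by rw [Int.natAbs_natCast]))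
  have h3 : 0 < n ^ 2 := pow_pos (Nat.pos_of_ne_zero hn) 2
  rw [divPoly, natDegree_sub_eq_left_of_natDegree_lt (by omega), h1]

lemma divPoly_ne_zero {n : ℕ} (hn : n ≠ 0) (c : F) : divPoly W n c ≠ 0 :=
  ne_zero_of_natDegree_gt (n := 0)
    (by rw [natDegree_divPoly hn c]; exact pow_pos (Nat.pos_of_ne_zero hn) 2)

/-- The Wronskian of `Φₙ` and `ΨSqₙ` is not zero. -/
lemma wronskian_Φ_ΨSq_ne_zero {n : ℕ} (hn : 2 ≤ n) (h : (n : F) ≠ 0) :
    derivative (W.Φ (n : ℤ)) * W.ΨSq (n : ℤ) - W.Φ (n : ℤ) * derivative (W.ΨSq (n : ℤ)) ≠ 0 := by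
  obtain ⟨m, hm⟩ : ∃ m, n ^ 2 = m + 2 := ⟨n ^ 2 - 2, by
    have : 2 ^ 2 ≤ n ^ 2 := Nat.pow_le_pow_left hn 2
    omega⟩
  have hΦd : (W.Φ (n : ℤ)).natDegree ≤ m + 2 := by
    rw [← hm]; exact (natDegree_Φ_le _ _).trans (by rw [Int.natAbs_natCast])
  have hΦc : (W.Φ (n : ℤ)).coeff (m + 2) = 1 := by
    rw [← hm, ← Int.natAbs_natCast n]; exact coeff_Φ _ _
  have hΨd : (W.ΨSq (n : ℤ)).natDegree ≤ m + 1 :=
    (natDegree_ΨSq_le _ _).trans (by rw [Int.natAbs_natCast, hm]; omega)
  have hΨc : (W.ΨSq (n : ℤ)).coeff (m + 1) = (n : F) ^ 2 := by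
    have := W.coeff_ΨSq (n : ℤ)
    rwa [Int.natAbs_natCast, hm, show m + 2 - 1 = m + 1 by omega, Int.cast_natCast] at this
  intro h0
  have hc := congrArg (fun p => Polynomial.coeff p (2 * m + 2)) h0
  simp only [coeff_sub, coeff_zero] at hc
  have h1 := coeff_mul_add_eq_of_natDegree_le
    ((natDegree_derivative_le (W.Φ (n : ℤ))).trans (show _ ≤ m + 1 by omega)) hΨd
  have h2 := coeff_mul_add_eq_of_natDegree_le hΦd
    ((natDegree_derivative_le (W.ΨSq (n : ℤ))).trans (show _ ≤ m by omega))
  rw [show m + 1 + (m + 1) = 2 * m + 2 by omega] at h1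
  rw [show m + 2 + m = 2 * m + 2 by omega] at h2
  rw [h1, h2,
    coeff_derivative, coeff_derivative, hΦc, hΨc] at hc
  have hm' : (n : F) ^ 2 = (m : F) + 2 := by exact_mod_cast congrArg (Nat.cast : ℕ → F) hm
  apply pow_ne_zero 2 h
  push_cast at hc
  linear_combination hc

variable [W.IsElliptic]

lemma Ψ₂Sq_ne_zero_of_isElliptic : W.Ψ₂Sq ≠ 0 := by
  intro h
  have hΔ : W.Δ ≠ 0 := W.isUnit_Δ.ne_zero
  have h3 := congrArg (fun p => Polynomial.coeff p 3) h
  have h2 := congrArg (fun p => Polynomial.coeff p 2) h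
  have h0 := congrArg (fun p => Polynomial.coeff p 0) h
  simp [WeierstrassCurve.Ψ₂Sq, coeff_X, coeff_X_pow, coeff_C] at h3 h2 h0
  apply hΔ
  simp only [WeierstrassCurve.Δ, h2, h0]
  linear_combination -(2 * W.b₄ ^ 3) * h3

end Polys

section AlgClosed

variable {K : Type*} [Field K] [IsAlgClosed K] {W : WeierstrassCurve.Affine K} [W.IsElliptic]

lemma exists_point (x : K) : ∃ (y : K), W.Nonsingular x y := by
  obtain ⟨y, hy⟩ := IsAlgClosed.exists_root
    (C 1 * X ^ 2 + C (W.a₁ * x + W.a₃) * X + C (-(x ^ 3 + W.a₂ * x ^ 2 + W.a₄ * x + W.a₆)))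
    (by rw [degree_quadratic one_ne_zero]; decide)
  refine ⟨y, Affine.equation_iff_nonsingular.mp ((Affine.equation_iff _ _).mpr ?_)⟩
  simp only [IsRoot, eval_add, eval_mul, eval_C, eval_pow, eval_X] at hy
  linear_combination hy

variable [DecidableEq K]

lemma ΨSq_eval_ne_zero_of_isRoot_divPoly {n : ℕ} {c r : K} (hr : (divPoly W n c).IsRoot r) :
    (W.ΨSq (n : ℤ)).eval r ≠ 0 := by
  obtain ⟨y, hy⟩ := exists_point (W := W) r
  intro h0
  simp only [divPoly, IsRoot, eval_sub, eval_mul, eval_C, h0, mul_zero, sub_zero] at hr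
  exact (Φ_ΨSq_no_common_root hy n).elim (fun h => h hr) (fun h => h h0)

/-- Points over `r`, a root of `divPoly n c`, map to points of abscissa `c`. -/
lemma hasX_nsmul_of_isRoot_divPoly {n : ℕ} {c r : K} (hr : (divPoly W n c).IsRoot r) {y : K}
    (hy : W.Nonsingular r y) : HasX (n • Affine.Point.some r y hy) c := by
  have hne : n • Affine.Point.some r y hy ≠ 0 := fun h =>
    ΨSq_eval_ne_zero_of_isRoot_divPoly hr ((nsmul_eq_zero_iff hy n).mp h)
  obtain ⟨t, z, hz, he⟩ := exists_hasX hne
  obtain ⟨hΨ, hX⟩ := X_nsmul hy he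
  simp only [divPoly, IsRoot, eval_sub, eval_mul, eval_C] at hr
  have : t = c := mul_right_cancel₀ hΨ (by linear_combination hX + hr)
  exact this ▸ ⟨z, hz, he⟩

/-- Multiplication by a nonzero natural number is surjective. -/
theorem nsmul_surjective {n : ℕ} (hn : n ≠ 0) :
    Function.Surjective fun P : W.Point => n • P := by
  intro Q
  cases Q with
  | zero => exact ⟨0, by simp [← Affine.Point.zero_def]⟩
  | some c d hQ =>
    obtain ⟨r, hr⟩ := IsAlgClosed.exists_root (divPoly W n c) (by
      rw [degree_eq_natDegree (divPoly_ne_zero hn c), natDegree_divPoly hn c]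
      exact_mod_cast (pow_pos (Nat.pos_of_ne_zero hn) 2).ne')
    obtain ⟨y, hy⟩ := exists_point (W := W) r
    obtain ⟨z, hz, he⟩ := hasX_nsmul_of_isRoot_divPoly hr hy
    rcases (Affine.Point.X_eq_iff (h₁ := hz) (h₂ := hQ)).mp rfl with h | h
    · exact ⟨_, he.trans h⟩
    · exact ⟨-Affine.Point.some r y hy, by simp only [neg_nsmul, he, h, neg_neg]⟩

/-- A value of the abscissa over which multiplication by `n` is unramified. -/
lemma exists_good_value {n : ℕ} (hn : 2 ≤ n) (h : (n : K) ≠ 0) :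
    ∃ c : K, dupDen W c 1 ≠ 0 ∧ (divPoly W n c).roots.Nodup := by
  classical
  have := IsAlgClosed.instInfinite (K := K)
  obtain ⟨c, hc⟩ := Infinite.exists_notMem_finset (W.Ψ₂Sq.roots.toFinset ∪
    ((derivative (W.Φ (n : ℤ)) * W.ΨSq (n : ℤ) -
      W.Φ (n : ℤ) * derivative (W.ΨSq (n : ℤ))).roots.toFinset.image
        fun r => (W.Φ (n : ℤ)).eval r / (W.ΨSq (n : ℤ)).eval r))
  simp only [Finset.mem_union, Multiset.mem_toFinset, Finset.mem_image,
    mem_roots Ψ₂Sq_ne_zero_of_isElliptic, mem_roots (wronskian_Φ_ΨSq_ne_zero hn h), not_or,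
    not_exists, not_and] at hc
  refine ⟨c, fun h0 => hc.1 (by rw [IsRoot, eval_Ψ₂Sq, h0]), ?_⟩
  rw [Multiset.nodup_iff_count_le_one]
  intro r
  rw [count_roots]
  by_contra hlt
  rw [not_le, one_lt_rootMultiplicity_iff_isRoot (divPoly_ne_zero (by omega) c)] at hlt
  obtain ⟨h1, h2⟩ := hlt
  have hΨ := ΨSq_eval_ne_zero_of_isRoot_divPoly h1
  simp only [divPoly, IsRoot, eval_sub, eval_mul, eval_C, derivative_sub, derivative_C_mul] at h1 h2
  refine hc.2 r ?_ ?_
  · simp only [IsRoot, eval_sub, eval_mul]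
    linear_combination (W.ΨSq (n : ℤ)).eval r * h2 - (derivative (W.ΨSq (n : ℤ))).eval r * h1
  · rw [div_eq_iff hΨ]; linear_combination h1

/-- `#E[n] = n²` when `n` is invertible. -/
theorem natCard_torsionBy (n : ℕ) (h : (n : K) ≠ 0) :
    Nat.card (Submodule.torsionBy ℤ W.Point (n : ℤ)) = n ^ 2 := by
  rcases (by omega : n = 0 ∨ n = 1 ∨ 2 ≤ n) with rfl | rfl | hn
  · simp at h
  · rw [Nat.cast_one, Submodule.torsionBy_one, one_pow]
    exact Nat.card_unique
  have hn0 : n ≠ 0 := by omega
  obtain ⟨c, hc, hnodup⟩ := exists_good_value (W := W) hn h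
  obtain ⟨d, hQ⟩ := exists_point (W := W) c
  set Q := Affine.Point.some c d hQ with hQdef
  have hQX : HasX Q c := ⟨d, hQ, rfl⟩
  have hQQ : Q ≠ -Q := fun he => hc ((two_nsmul_eq_zero_iff hQX).mp (by
    rw [two_nsmul]; exact eq_neg_iff_add_eq_zero.mp he))
  -- the points mapping to `±Q`
  let S := {P : W.Point // n • P = Q ∨ n • P = -Q}
  have hmem : ∀ {r y : K} (hy : W.Nonsingular r y),
      ((n • Affine.Point.some r y hy = Q ∨ n • Affine.Point.some r y hy = -Q) ↔
        (divPoly W n c).IsRoot r) := by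
    intro r y hy
    constructor
    · intro hP
      have hX : HasX (n • Affine.Point.some r y hy) c := by
        rcases hP with hP | hP <;> rw [hP]
        exacts [hQX, hQX.neg]
      obtain ⟨z, hz, he⟩ := hX
      obtain ⟨-, hX⟩ := X_nsmul hy he
      simp only [divPoly, IsRoot, eval_sub, eval_mul, eval_C]
      linear_combination -hX
    · intro hr
      obtain ⟨z, hz, he⟩ := hasX_nsmul_of_isRoot_divPoly hr hy
      rw [he]
      exact Affine.Point.X_eq_iff.mp rfl
  -- first count: two points over each root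
  let R := {r : K // r ∈ (divPoly W n c).roots.toFinset}
  have hroot : ∀ r : R, (divPoly W n c).IsRoot r.1 := fun r =>
    isRoot_of_mem_roots (Multiset.mem_toFinset.mp r.2)
  choose yf hyf using fun r : R => exists_point (W := W) r.1
  let Pt : R → W.Point := fun r => Affine.Point.some r.1 (yf r) (hyf r)
  have hPt : ∀ r, n • Pt r = Q ∨ n • Pt r = -Q := fun r => (hmem (hyf r)).mpr (hroot r)
  have hPtne : ∀ r, Pt r ≠ -Pt r := by
    intro r he
    have h' := congrArg (n • ·) he
    simp only [neg_nsmul] at h'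
    rcases hPt r with h1 | h1 <;> rw [h1] at h'
    · exact hQQ h'
    · exact hQQ (by rw [neg_neg] at h'; exact h'.symm)
  let f : R × Bool → S := fun rb =>
    ⟨if rb.2 then Pt rb.1 else -Pt rb.1, by
      rcases rb with ⟨r, _ | _⟩
      · simp only [Bool.false_eq_true, if_false, neg_nsmul, neg_eq_iff_eq_neg, neg_neg]
        exact (hPt r).symm
      · simpa using hPt r⟩
  have hxRep : ∀ rb, (f rb).1.xRep = ![rb.1.1, 1] := by
    rintro ⟨r, _ | _⟩ <;> simp [f, Pt, -Affine.Point.neg_some]
  have hf : Function.Bijective f := by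
    constructor
    · rintro ⟨r, a⟩ ⟨r', b⟩ he
      have hr : r = r' := by
        have := congrArg (fun P : S => P.1.xRep 0) he
        simp only [hxRep, Matrix.cons_val_zero] at this
        exact Subtype.ext this
      subst hr
      have he' := congrArg Subtype.val he
      rcases a <;> rcases b <;>
        simp only [f, Bool.false_eq_true, if_false, if_true] at he' <;> try rfl
      · exact absurd he'.symm (hPtne r)
      · exact absurd he' (hPtne r)
    · rintro ⟨P, hP⟩
      cases P with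
      | zero =>
        rw [← Affine.Point.zero_def, nsmul_zero] at hP
        exact absurd (hP.elim Eq.symm fun h0 => neg_eq_zero.mp h0.symm) hQX.ne_zero
      | some r y hy =>
        let r' : R := ⟨r, Multiset.mem_toFinset.mpr
          ((mem_roots (divPoly_ne_zero hn0 c)).mpr ((hmem hy).mp hP))⟩
        rcases (Affine.Point.X_eq_iff (h₁ := hy) (h₂ := hyf r')).mp rfl with he | he
        · exact ⟨(r', true), Subtype.ext (by simp [f, Pt, he])⟩
        · exact ⟨(r', false), Subtype.ext (by simp only [f, Pt, he, Bool.false_eq_true, if_false])⟩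
  have hS : Nat.card S = n ^ 2 * 2 := by
    rw [← Nat.card_congr (Equiv.ofBijective f hf), Nat.card_prod,
      Nat.card_eq_fintype_card (α := Bool), Fintype.card_bool, Nat.card_eq_finsetCard,
      Multiset.toFinset_card_of_nodup hnodup,
      (IsAlgClosed.splits _).natDegree_eq_card_roots.symm, natDegree_divPoly hn0]
  -- second count: two cosets of the torsion subgroup
  obtain ⟨P₀, hP₀⟩ := nsmul_surjective (W := W) hn0 Q
  simp only at hP₀
  have htor : ∀ T : Submodule.torsionBy ℤ W.Point (n : ℤ), n • (T : W.Point) = 0 := fun T => by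
    rw [← natCast_zsmul]; exact (Submodule.mem_torsionBy_iff _ _).mp T.2
  let e : Submodule.torsionBy ℤ W.Point (n : ℤ) × Bool → S := fun Tb =>
    ⟨(if Tb.2 then P₀ else -P₀) + (Tb.1 : W.Point), by
      rcases Tb with ⟨T, _ | _⟩
      · right; simp [htor, hP₀]
      · left; simp [htor, hP₀]⟩
  have he : Function.Bijective e := by
    constructor
    · rintro ⟨T, a⟩ ⟨T', b⟩ hee
      have hee' := congrArg Subtype.val hee
      have h' := congrArg (n • ·) hee'
      rcases a <;> rcases b <;> simp [e, htor, hP₀] at hee' h' ⊢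
      all_goals first
        | exact hee'
        | exact (hQQ h').elim
        | exact (hQQ h'.symm).elim
    · rintro ⟨P, hP | hP⟩
      · refine ⟨(⟨P - P₀, ?_⟩, true), Subtype.ext (by simp [e])⟩
        rw [Submodule.mem_torsionBy_iff, natCast_zsmul, nsmul_sub, hP, hP₀, sub_self]
      · refine ⟨(⟨P + P₀, ?_⟩, false), Subtype.ext (by simp [e])⟩
        rw [Submodule.mem_torsionBy_iff, natCast_zsmul, nsmul_add, hP, hP₀, neg_add_cancel]
  have hS' : Nat.card S = Nat.card (Submodule.torsionBy ℤ W.Point (n : ℤ)) * 2 := by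
    rw [← Nat.card_congr (Equiv.ofBijective e he), Nat.card_prod,
      Nat.card_eq_fintype_card (α := Bool), Fintype.card_bool]
  omega

end AlgClosed

section AnyField

variable {F : Type*} [Field F] {W : WeierstrassCurve.Affine F} [W.IsElliptic]

/-- `ΨSqₙ` is not the zero polynomial for an elliptic curve and `n ≠ 0`, in any characteristic. -/
theorem ΨSq_ne_zero_of_isElliptic {n : ℕ} (hn : n ≠ 0) : W.ΨSq (n : ℤ) ≠ 0 := by
  classical
  intro h0
  let f := algebraMap F (AlgebraicClosure F)
  let W' : WeierstrassCurve.Affine (AlgebraicClosure F) := W.map f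
  have hell : W'.IsElliptic := inferInstanceAs (WeierstrassCurve.map W f).IsElliptic
  obtain ⟨y, hy⟩ := exists_point (W := W') 0
  obtain ⟨P, hP⟩ := nsmul_surjective (W := W') hn (Affine.Point.some 0 y hy)
  cases P with
  | zero =>
    simp only [← Affine.Point.zero_def, nsmul_zero] at hP
    exact Affine.Point.some_ne_zero hy hP.symm
  | some r s hr =>
    simp only at hP
    have hne : n • Affine.Point.some r s hr ≠ 0 := hP ▸ Affine.Point.some_ne_zero hy
    apply ΨSq_eval_ne_zero_of_nsmul_ne_zero hr hne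
    rw [show W' = W.map f from rfl, WeierstrassCurve.map_ΨSq, h0, Polynomial.map_zero, eval_zero]

variable [DecidableEq F]

/-- The `n`-torsion of an elliptic curve is finite for `n ≠ 0`, over any field. -/
theorem finite_torsionBy {n : ℕ} (hn : n ≠ 0) :
    Finite (Submodule.torsionBy ℤ W.Point (n : ℤ)) := by
  classical
  have hΨ := ΨSq_ne_zero_of_isElliptic (W := W) hn
  let S : Set (F × F) :=
    {xy | (W.ΨSq (n : ℤ)).IsRoot xy.1 ∧ W.Nonsingular xy.1 xy.2}
  have hS : S.Finite := by
    refine Set.Finite.subset ((W.ΨSq (n : ℤ)).roots.toFinset.finite_toSet.biUnion (t := fun r =>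
      Prod.mk r '' {y : F | W.Equation r y}) fun r _ => ?_) ?_
    · refine Set.Finite.image _ ?_
      by_cases he : ∃ y, W.Equation r y
      · obtain ⟨y, hy⟩ := he
        refine Set.Finite.subset ((Set.finite_singleton (W.negY r y)).insert y) fun z hz => ?_
        rcases Affine.Y_eq_of_X_eq hz hy rfl with h | h <;> simp [h]
      · exact Set.finite_empty.subset fun z hz => (he ⟨z, hz⟩).elim
    · rintro ⟨r, y⟩ ⟨hr, hy⟩
      simp only [Set.mem_iUnion, Finset.mem_coe, Multiset.mem_toFinset, Set.mem_image,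
        Set.mem_ofPred_eq, Prod.mk.injEq]
      exact ⟨r, (mem_roots hΨ).mpr hr, y, hy.1, rfl, rfl⟩
  have := hS.to_subtype
  refine Finite.of_injective (β := Option S) (fun P =>
    match P with
    | ⟨.zero, _⟩ => none
    | ⟨.some x y h, hP⟩ => Option.some ⟨(x, y), (nsmul_eq_zero_iff h n).mp (by
        rwa [← natCast_zsmul, ← Submodule.mem_torsionBy_iff]), h⟩) ?_
  rintro ⟨_ | ⟨x, y, h⟩, hP⟩ ⟨_ | ⟨x', y', h'⟩, hP'⟩ he <;> simp_all

end AnyField

section Finrank

variable {K : Type*} [Field K] [IsAlgClosed K] [DecidableEq K] {W : WeierstrassCurve.Affine K}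
  [W.IsElliptic]

/-- `E[p]` is two-dimensional over `ZMod p`, for any module structure. -/
theorem finrank_torsionBy (p : ℕ) [Fact p.Prime] (h : (p : K) ≠ 0)
    [Module (ZMod p) (Submodule.torsionBy ℤ W.Point (p : ℤ))] :
    Module.finrank (ZMod p) (Submodule.torsionBy ℤ W.Point (p : ℤ)) = 2 := by
  have hp : p.Prime := Fact.out
  have := finite_torsionBy (W := W) hp.ne_zero
  have hc := Module.natCard_eq_pow_finrank (K := ZMod p)
    (V := Submodule.torsionBy ℤ W.Point (p : ℤ))
  rw [natCard_torsionBy p h, Nat.card_zmod] at hc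
  exact (Nat.pow_right_injective hp.two_le hc).symm

end Finrank

section BaseChange

open scoped WeierstrassCurve.Affine

variable {R : Type*} [CommRing R] (W : WeierstrassCurve R) [W.IsElliptic]
  (K : Type*) [Field K] [DecidableEq K] [Algebra R K]

/-- The base change of an elliptic curve, seen as an affine curve, is elliptic. -/
instance isElliptic_affine_baseChange : WeierstrassCurve.IsElliptic (W⁄K) :=
  inferInstanceAs (WeierstrassCurve.map W (algebraMap R K)).IsElliptic

theorem finite_torsionBy_baseChange {n : ℕ} (hn : n ≠ 0) :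
    Finite (Submodule.torsionBy ℤ (W⁄K).Point (n : ℤ)) :=
  finite_torsionBy hn

theorem natCard_torsionBy_baseChange [IsAlgClosed K] (n : ℕ) (h : (n : K) ≠ 0) :
    Nat.card (Submodule.torsionBy ℤ (W⁄K).Point (n : ℤ)) = n ^ 2 :=
  natCard_torsionBy n h

theorem nsmul_surjective_baseChange [IsAlgClosed K] {n : ℕ} (hn : n ≠ 0) :
    Function.Surjective fun P : (W⁄K).Point => n • P :=
  nsmul_surjective hn

theorem finrank_torsionBy_baseChange [IsAlgClosed K] (p : ℕ) [Fact p.Prime] (h : (p : K) ≠ 0)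
    [Module (ZMod p) (Submodule.torsionBy ℤ (W⁄K).Point (p : ℤ))] :
    Module.finrank (ZMod p) (Submodule.torsionBy ℤ (W⁄K).Point (p : ℤ)) = 2 :=
  finrank_torsionBy p h

end BaseChange

end Fermat.Agent.EllTorsion
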