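import Fermat.Agent.EllTorsion.Count
import Mathlib.GroupTheory.Exponent
import Mathlib.GroupTheory.SpecificGroups.Cyclic
import Mathlib.GroupTheory.QuotientGroup.Basic
import Mathlib.LinearAlgebra.FreeModule.Basic

/-!
# `E[n]` is free of rank two over `ZMod n`
-/

set_option autoImplicit false

open WeierstrassCurve

namespace Fermat.Agent.EllTorsion

section AbelianGroup

variable {G : Type*} [AddCommGroup G]

/-- A finite abelian group killed by `n` with `d²` elements killed by `d` for all `d ∣ n` is
`(ℤ/n)²`. -/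
theorem nonempty_addEquiv_zmod_prod {n : ℕ} (hn : n ≠ 0) (hexp : ∀ g : G, n • g = 0)
    (hcard : ∀ d, d ∣ n → Nat.card {g : G // d • g = 0} = d ^ 2) :
    Nonempty (ZMod n × ZMod n ≃+ G) := by
  classical
  have hG : Nat.card G = n ^ 2 := by
    rw [← hcard n dvd_rfl]
    exact Nat.card_congr (Equiv.subtypeUnivEquiv hexp).symm
  have : Finite G := Nat.finite_of_card_ne_zero (by rw [hG]; exact pow_ne_zero 2 hn)
  -- an element of order `n`
  have he : AddMonoid.exponent G = n := by
    have hdvd : AddMonoid.exponent G ∣ n := AddMonoid.exponent_dvd_of_forall_nsmul_eq_zero hexp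
    have h1 := hcard _ hdvd
    have h2 : Nat.card {g : G // AddMonoid.exponent G • g = 0} = Nat.card G :=
      Nat.card_congr (Equiv.subtypeUnivEquiv fun g => AddMonoid.exponent_nsmul_eq_zero g)
    rw [h2, hG] at h1
    exact (Nat.pow_left_injective (two_ne_zero) h1).symm
  obtain ⟨P, hP⟩ := AddMonoid.exists_addOrderOf_eq_exponent
    (AddMonoid.ExponentExists.of_finite (G := G))
  rw [he] at hP
  let H := AddSubgroup.zmultiples P
  have hH : Nat.card H = n := by rw [Nat.card_zmultiples, hP]
  have hQ : Nat.card (G ⧸ H) = n := by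
    have := AddSubgroup.card_eq_card_quotient_mul_card_addSubgroup H
    rw [hG, hH, sq] at this
    exact (Nat.eq_of_mul_eq_mul_right (Nat.pos_of_ne_zero hn) this).symm
  -- the quotient has exponent `n`
  have hqe : AddMonoid.exponent (G ⧸ H) = n := by
    set e := AddMonoid.exponent (G ⧸ H) with hedef
    have hdvd : e ∣ n := AddMonoid.exponent_dvd_of_forall_nsmul_eq_zero fun q => by
      obtain ⟨g, rfl⟩ := QuotientAddGroup.mk_surjective q
      rw [← QuotientAddGroup.mk_nsmul, hexp, QuotientAddGroup.mk_zero]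
    obtain ⟨m, hm⟩ := hdvd
    have hmem : ∀ g : G, e • g ∈ H := fun g => by
      rw [← QuotientAddGroup.eq_zero_iff, QuotientAddGroup.mk_nsmul]
      exact AddMonoid.exponent_nsmul_eq_zero _
    let f : G →+ H := AddMonoidHom.codRestrict (nsmulAddMonoidHom e) H hmem
    have hker : Nat.card f.ker = e ^ 2 := by
      rw [← hcard e (hm ▸ dvd_mul_right e m)]
      exact Nat.card_congr (Equiv.subtypeEquivRight fun g => by
        rw [AddMonoidHom.mem_ker, Subtype.ext_iff]; rfl)
    have hrange : Nat.card f.range ≤ m := by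
      have hcyc : IsAddCyclic H := inferInstance
      have hm0 : 0 < m := Nat.pos_of_ne_zero fun h => hn (by rw [hm, h, mul_zero])
      have : Fintype H := Fintype.ofFinite H
      calc Nat.card f.range ≤ Nat.card {h : H // m • h = 0} := by
            refine Nat.card_le_card_of_injective
              (fun h => ⟨h.1, ?_⟩) (fun a b hab => Subtype.ext (congrArg (fun x => x.1) hab))
            obtain ⟨g, hg⟩ := h.2
            rw [← hg]
            apply Subtype.ext
            show m • (e • g) = 0
            rw [← mul_nsmul', mul_comm, ← hm, hexp]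
        _ ≤ m := by
            rw [Nat.card_eq_fintype_card, Fintype.card_subtype]
            exact IsAddCyclic.card_nsmul_eq_zero_le hm0
    have htot := AddSubgroup.card_eq_card_quotient_mul_card_addSubgroup f.ker
    rw [Nat.card_congr (QuotientAddGroup.quotientKerEquivRange f).toEquiv, hG, hker] at htot
    have hm1 : m ≤ 1 := by
      by_contra hlt
      rw [not_le] at hlt
      have he0 : 0 < e := Nat.pos_of_ne_zero fun h => hn (by rw [hm, h, zero_mul])
      have : (e * m) ^ 2 ≤ m * e ^ 2 := by
        rw [← hm, htot]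
        exact Nat.mul_le_mul_right _ hrange
      have h2 : e ^ 2 * (m * 1) < e ^ 2 * (m * m) :=
        Nat.mul_lt_mul_of_pos_left (Nat.mul_lt_mul_of_pos_left hlt (by omega)) (pow_pos he0 2)
      rw [mul_pow, sq m] at this
      rw [mul_one] at h2
      rw [mul_comm m (e ^ 2)] at this
      omega
    have : m = 1 := by
      rcases Nat.le_one_iff_eq_zero_or_eq_one.mp hm1 with h | h
      · exact absurd (by rw [hm, h, mul_zero]) hn
      · exact h
    rw [hm, this, mul_one]
  obtain ⟨q, hq⟩ := AddMonoid.exists_addOrderOf_eq_exponent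
    (AddMonoid.ExponentExists.of_finite (G := G ⧸ H))
  rw [hqe] at hq
  obtain ⟨Q, rfl⟩ := QuotientAddGroup.mk_surjective q
  have hgen : AddSubgroup.zmultiples (Q : G ⧸ H) = ⊤ :=
    (AddSubgroup.card_eq_iff_eq_top _).mp (by rw [Nat.card_zmultiples, hq, hQ])
  let fP : ZMod n →+ G := ZMod.lift n ⟨zmultiplesHom G P, by simp [hexp P]⟩
  let fQ : ZMod n →+ G := ZMod.lift n ⟨zmultiplesHom G Q, by simp [hexp Q]⟩
  let F : ZMod n × ZMod n →+ G := fP.coprod fQ
  have hsurj : Function.Surjective F := by
    intro g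
    have : (g : G ⧸ H) ∈ AddSubgroup.zmultiples (Q : G ⧸ H) := hgen ▸ AddSubgroup.mem_top _
    obtain ⟨b, hb⟩ := AddSubgroup.mem_zmultiples_iff.mp this
    rw [← QuotientAddGroup.mk_zsmul, QuotientAddGroup.eq, AddSubgroup.mem_zmultiples_iff] at hb
    obtain ⟨a, ha⟩ := hb
    refine ⟨((a : ZMod n), (b : ZMod n)), ?_⟩
    simp only [F, fP, fQ, AddMonoidHom.coprod_apply, ZMod.lift_coe, zmultiplesHom_apply, ha]
    abel
  have : NeZero n := ⟨hn⟩
  exact ⟨AddEquiv.ofBijective F (hsurj.bijective_of_nat_card_le (by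
    rw [Nat.card_prod, Nat.card_zmod, hG, sq]))⟩

end AbelianGroup

section Curve

variable {K : Type*} [Field K] [IsAlgClosed K] [DecidableEq K] {W : WeierstrassCurve.Affine K}
  [W.IsElliptic]

/-- `E[n] ≅ (ℤ/n)²` for `n` invertible. -/
theorem nonempty_addEquiv_torsionBy {n : ℕ} (h : (n : K) ≠ 0) :
    Nonempty (ZMod n × ZMod n ≃+ Submodule.torsionBy ℤ W.Point (n : ℤ)) := by
  have hn : n ≠ 0 := fun h0 => h (by simp [h0])
  have hexp : ∀ g : Submodule.torsionBy ℤ W.Point (n : ℤ), n • g = 0 := fun g => by
    rw [← natCast_zsmul]; exact Submodule.smul_torsionBy _ g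
  refine nonempty_addEquiv_zmod_prod hn hexp fun d hd => ?_
  have hd' : (d : K) ≠ 0 := fun h0 => h (by
    obtain ⟨m, rfl⟩ := hd; rw [Nat.cast_mul, h0, zero_mul])
  rw [← natCard_torsionBy (W := W) d hd']
  refine Nat.card_congr
    { toFun := fun g => ⟨(g.1 : W.Point), by
        rw [Submodule.mem_torsionBy_iff, natCast_zsmul]
        exact congrArg Subtype.val g.2⟩
      invFun := fun g => ⟨⟨g.1, by
        obtain ⟨m, rfl⟩ := hd
        rw [Submodule.mem_torsionBy_iff, mul_comm, Nat.cast_mul, mul_zsmul']
        simp only [natCast_zsmul]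
        rw [← mul_nsmul', mul_comm, mul_nsmul',
          show (d • (g.1 : W.Point)) = 0 by
            rw [← natCast_zsmul]; exact (Submodule.mem_torsionBy_iff _ _).mp g.2, nsmul_zero]⟩,
        Subtype.ext (by
          show d • (g.1 : W.Point) = 0
          rw [← natCast_zsmul]
          exact (Submodule.mem_torsionBy_iff _ _).mp g.2)⟩
      left_inv := fun g => rfl
      right_inv := fun g => rfl }

end Curve

end Fermat.Agent.EllTorsion
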