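import Fermat.Agent.EllTorsion.Count
import Fermat.Prelude.Def_FLTPrelim_GaloisRep

/-!
# Points of equal Weierstrass curves
-/

set_option autoImplicit false

open WeierstrassCurve
open scoped WeierstrassCurve.Affine

namespace Fermat.Agent.EllTorsion

section Congr

variable {F : Type*} [Field F] [DecidableEq F]

/-- Points of equal curves. -/
def pointCongr {W W' : WeierstrassCurve.Affine F} (h : W = W') : W.Point ≃+ W'.Point := by
  subst h; exact AddEquiv.refl _

@[simp]
lemma pointCongr_some {W W' : WeierstrassCurve.Affine F} (h : W = W') {x y : F}
    (hP : W.Nonsingular x y) :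
    pointCongr h (Affine.Point.some x y hP) = Affine.Point.some x y (h ▸ hP) := by
  subst h; rfl

end Congr

end Fermat.Agent.EllTorsion
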