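import Fermat.Agent.EllTorsion.XCoord

/-!
# Multiples of a generic point

For a point whose abscissa is not a root of any division polynomial we compute the abscissas of
all its multiples, and deduce the doubling identities for division polynomials at that abscissa.
-/

set_option autoImplicit false

open Polynomial WeierstrassCurve

namespace Fermat.Agent.EllTorsion


variable {L : Type*} [Field L] (W : WeierstrassCurve.Affine L) (x y : L)

/-- Value of `Ψₖ` at the point. -/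
noncomputable def psiVal (k : ℕ) : L := (WeierstrassCurve.Ψ W (k : ℤ)).evalEval x y

/-- Expected abscissa of the `k`-th multiple. -/
noncomputable def xVal (k : ℕ) : L :=
  x - psiVal W x y (k + 1) * psiVal W x y (k - 1) / psiVal W x y k ^ 2

variable {W x y}

lemma psiVal_zero : psiVal W x y 0 = 0 := by
  simp [psiVal]

lemma psiVal_one : psiVal W x y 1 = 1 := by
  simp [psiVal]

lemma evalEval_ψ₂ : W.ψ₂.evalEval x y = 2 * y + W.a₁ * x + W.a₃ := by
  simp [WeierstrassCurve.ψ₂, Affine.evalEval_polynomialY]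

lemma psiVal_two : psiVal W x y 2 = 2 * y + W.a₁ * x + W.a₃ := by
  simp [psiVal, evalEval_ψ₂]

lemma psiVal_three : psiVal W x y 3 = W.Ψ₃.eval x := by
  simp [psiVal, evalEval_C]

lemma psiVal_four : psiVal W x y 4 = W.preΨ₄.eval x * psiVal W x y 2 := by
  simp [psiVal, evalEval_C]

lemma psiVal_odd (hE : W.Equation x y) (j : ℕ) : psiVal W x y (2 * j + 3) =
    psiVal W x y (j + 3) * psiVal W x y (j + 1) ^ 3 -
      psiVal W x y j * psiVal W x y (j + 2) ^ 3 := by
  have h := congrArg (Polynomial.evalEval x y) (W.Ψ_odd ((j : ℤ) + 1))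
  simp only [evalEval_add, evalEval_sub, evalEval_mul, evalEval_pow,
    show W.polynomial.evalEval x y = 0 from hE, zero_mul, add_zero] at h
  simp only [psiVal]
  push_cast
  convert h using 1 <;> ring_nf

lemma psiVal_even (j : ℕ) : psiVal W x y (2 * j + 4) * psiVal W x y 2 =
    psiVal W x y (j + 1) ^ 2 * psiVal W x y (j + 2) * psiVal W x y (j + 4) -
      psiVal W x y j * psiVal W x y (j + 2) * psiVal W x y (j + 3) ^ 2 := by
  have h := congrArg (Polynomial.evalEval x y) (W.Ψ_even ((j : ℤ) + 2))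
  simp only [evalEval_sub, evalEval_mul, evalEval_pow] at h
  rw [psiVal_two, ← evalEval_ψ₂]
  simp only [psiVal]
  push_cast
  convert h using 1 <;> ring_nf

lemma psiVal_two_sq (hE : W.Equation x y) : psiVal W x y 2 ^ 2 = dupDen W x 1 := by
  rw [psiVal_two, psi_sq_of_equation hE]

lemma eval_ΨSq (hE : W.Equation x y) (k : ℕ) :
    (W.ΨSq (k : ℤ)).eval x = psiVal W x y k ^ 2 := by
  simp only [psiVal, WeierstrassCurve.Ψ, WeierstrassCurve.ΨSq, Int.even_coe_nat]
  split_ifs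
  · simp [evalEval_C, mul_pow, evalEval_ψ₂, psi_sq_of_equation hE, eval_Ψ₂Sq]
  · simp [evalEval_C]

lemma eval_Φ (hE : W.Equation x y) (k : ℕ) :
    (W.Φ ((k + 1 : ℕ) : ℤ)).eval x =
      x * psiVal W x y (k + 1) ^ 2 - psiVal W x y (k + 2) * psiVal W x y k := by
  have h2 := psiVal_two_sq hE
  rw [psiVal_two] at h2
  rw [WeierstrassCurve.Φ, eval_sub, eval_mul, eval_X, eval_ΨSq hE]
  simp only [psiVal, WeierstrassCurve.Ψ]
  push_cast
  rw [show (k : ℤ) + 1 + 1 = (k : ℤ) + 2 by ring, add_sub_cancel_right]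
  simp only [Int.even_add, even_two, iff_true, Int.not_even_one, iff_false]
  split_ifs <;> simp [evalEval_C, evalEval_ψ₂, eval_Ψ₂Sq, ← h2] <;> ring

lemma step_algebra {a b p q d t x gm Gn Hn Kn Gi Hi Ki T S : L} (h0 : Gi ^ 2 * Hi ≠ 0)
    (hF : (b - x) ^ 2 * (a - p) * (a - q) = (a - b) ^ 2 * (x - t) * (x - d))
    (hxi : (x - d) * Gi ^ 2 = Hi * Ki) (hxn : (x - b) * Gn ^ 2 = Hn * Kn)
    (hD : (a - b) * gm ^ 2 * Gn ^ 2 = -(T * Gi))
    (hD' : (a - q) * gm ^ 2 * Kn ^ 2 = -(S * Hi)) :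
    (a - p) * gm ^ 2 * Hn ^ 2 * S = -((x - t) * T ^ 2 * Ki) := by
  have h1 : (a - b) ^ 2 * gm ^ 4 * Gn ^ 4 = T ^ 2 * Gi ^ 2 := by
    linear_combination ((a - b) * gm ^ 2 * Gn ^ 2 - T * Gi) * hD
  have h2 : (b - x) ^ 2 * Gn ^ 4 = Hn ^ 2 * Kn ^ 2 := by
    linear_combination ((x - b) * Gn ^ 2 + Hn * Kn) * hxn
  apply mul_left_cancel₀ h0
  linear_combination -(gm ^ 4 * Gn ^ 4 * Gi ^ 2) * hF + (a - p) * (a - q) * gm ^ 4 * Gi ^ 2 * h2 -
    (x - t) * (x - d) * Gi ^ 2 * h1 + (a - p) * gm ^ 2 * Hn ^ 2 * Gi ^ 2 * hD' -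
    T ^ 2 * Gi ^ 2 * (x - t) * hxi

lemma step_algebra_one {a d t x X₂ N D g₂ gm Gi Ki T : L} (h0 : gm * Gi ^ 2 ≠ 0)
    (hp : (x - t) * (x - d) * (a - x) ^ 2 = N - a * D) (h₂ : X₂ * D = N) (h22 : g₂ ^ 2 = D)
    (hxi : (x - d) * Gi ^ 2 = gm * Ki) (hD : (a - x) * gm ^ 2 = -(T * Gi)) :
    (a - X₂) * gm ^ 2 * g₂ ^ 2 * gm = -((x - t) * T ^ 2 * Ki) := by
  have h1 : (a - x) ^ 2 * gm ^ 4 = T ^ 2 * Gi ^ 2 := by
    linear_combination ((a - x) * gm ^ 2 - T * Gi) * hD
  apply mul_left_cancel₀ h0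
  linear_combination gm ^ 4 * Gi ^ 2 * hp - (x - t) * (x - d) * Gi ^ 2 * h1 -
    (x - t) * T ^ 2 * Gi ^ 2 * hxi - gm ^ 4 * Gi ^ 2 * h₂ + (a - X₂) * gm ^ 4 * Gi ^ 2 * h22

/-- A generic point: nonsingular, with no division polynomial vanishing on it. -/
structure IsGenericPt (W : WeierstrassCurve.Affine L) (x y : L) : Prop where
  nonsingular : W.Nonsingular x y
  ne_zero : ∀ k : ℕ, k ≠ 0 → psiVal W x y k ≠ 0

variable [DecidableEq L]

variable (W x y) in
/-- The multiple `k • P` has abscissa `xVal k`. -/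
def GoodMul (h : W.Nonsingular x y) (k : ℕ) : Prop :=
  HasX (k • Affine.Point.some x y h) (xVal W x y k)

namespace IsGenericPt

variable (hP : IsGenericPt W x y)
include hP

local notation "g" => psiVal W x y
local notation "X'" => xVal W x y
local notation "P" => Affine.Point.some x y hP.nonsingular

lemma xVal_one : X' 1 = x := by
  simp [xVal, psiVal_zero]

omit [DecidableEq L] in
lemma xVal_mul (k : ℕ) :
    X' (k + 1) * g (k + 1) ^ 2 = x * g (k + 1) ^ 2 - g (k + 2) * g k := by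
  have := hP.ne_zero (k + 1) (by omega)
  simp only [xVal, add_tsub_cancel_right]
  field_simp

lemma x_sub_xVal_mul (k : ℕ) : (x - X' (k + 1)) * g (k + 1) ^ 2 = g (k + 2) * g k := by
  linear_combination -hP.xVal_mul k

lemma xVal_ne (k : ℕ) : X' (k + 2) ≠ x := by
  intro h
  have h' := hP.x_sub_xVal_mul (k + 1)
  rw [show k + 1 + 1 = k + 2 by rfl, h, sub_self, zero_mul] at h'
  exact mul_ne_zero (hP.ne_zero (k + 3) (by omega)) (hP.ne_zero (k + 1) (by omega)) h'.symm

lemma xVal_two : X' 2 * dupDen W x 1 = dupNum W x 1 := by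
  rw [← psiVal_two_sq hP.nonsingular.left, hP.xVal_mul 1, psiVal_one, psiVal_three,
    psiVal_two_sq hP.nonsingular.left, ← eval_Ψ₂Sq, ← eval_Φ_two]
  simp [WeierstrassCurve.Φ_two, WeierstrassCurve.Ψ₂Sq, WeierstrassCurve.Ψ₃]
  ring

lemma goodMul_one : GoodMul W x y hP.nonsingular 1 :=
  ⟨y, by rw [hP.xVal_one]; exact hP.nonsingular,
    by rw [one_nsmul]; congr 1; exact hP.xVal_one.symm⟩

lemma goodMul_two : GoodMul W x y hP.nonsingular 2 := by
  have h2 : dupDen W x 1 ≠ 0 := by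
    rw [← psiVal_two_sq hP.nonsingular.left]; exact pow_ne_zero 2 (hP.ne_zero 2 (by omega))
  obtain ⟨s, hs, hs'⟩ := exists_hasX_two_nsmul ⟨y, hP.nonsingular, rfl⟩ h2
  rw [GoodMul, show X' 2 = s from mul_right_cancel₀ h2 (hP.xVal_two.trans hs'.symm)]
  exact hs

/-- Product of the two adjacent differences. -/
lemma pair_one (a : L) {j : ℕ} {s : L} (hj : GoodMul W x y hP.nonsingular (j + 1))
    (ha : a = X' (j + 1)) (hax : a ≠ x) (hs : HasX ((j + 2) • P) s)
    (hd : GoodMul W x y hP.nonsingular j) :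
    (x - s) * (x - X' j) * (a - x) ^ 2 = dupNum W x 1 - a * dupDen W x 1 := by
  subst ha
  have hB : HasX P x := ⟨y, hP.nonsingular, rfl⟩
  obtain ⟨t, d, ht, hd', e₁, e₂⟩ := exists_hasX_add_sub hj hB hax
  have hst : t = s := by
    apply ht.unique
    rw [← succ_nsmul]; exact hs
  have hdd : d = X' j := by
    apply hd'.unique
    rw [succ_nsmul, add_sub_cancel_right]; exact hd
  subst hst hdd
  linear_combination (norm := (simp only [sumForm, prodForm, dupNum, dupDen]; ring1))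
    -x * e₁ + e₂

lemma goodMul_three : GoodMul W x y hP.nonsingular 3 := by
  have hB : HasX P x := ⟨y, hP.nonsingular, rfl⟩
  obtain ⟨t, d, ht, hd, e₁, -⟩ := exists_hasX_add_sub hP.goodMul_two hB (hP.xVal_ne 0)
  have hdx : d = x := by
    apply hd.unique
    rw [two_nsmul, add_sub_cancel_right]; exact hB
  rw [hdx] at e₁
  rw [← succ_nsmul] at ht
  suffices t = X' 3 by rw [GoodMul, ← this]; exact ht
  have h2 := hP.xVal_two
  have h22 := psiVal_two_sq hP.nonsingular.left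
  have h3 : X' 3 * g 3 ^ 2 = x * g 3 ^ 2 - W.preΨ₄.eval x * g 2 * g 2 := by
    rw [← psiVal_four]; exact hP.xVal_mul 2
  have hψ : x * dupDen W x 1 - dupNum W x 1 = g 3 := by
    rw [psiVal_three]
    simp [dupDen, dupNum, WeierstrassCurve.Ψ₃]
    ring
  have key : sumForm W x 1 (dupNum W x 1) (dupDen W x 1) =
      2 * x * (x * dupDen W x 1 - dupNum W x 1) ^ 2 - W.preΨ₄.eval x * dupDen W x 1 := by
    simp only [sumForm, dupNum, dupDen, WeierstrassCurve.preΨ₄]
    simp only [eval_add, eval_mul, eval_pow, eval_ofNat, eval_C, eval_X,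
      WeierstrassCurve.b₂, WeierstrassCurve.b₄, WeierstrassCurve.b₆, WeierstrassCurve.b₈]
    ring1
  have hs : sumForm W (X' 2) 1 x 1 * dupDen W x 1 ^ 2 =
      sumForm W x 1 (dupNum W x 1) (dupDen W x 1) := by
    rw [← h2]; simp only [sumForm]; ring
  have hc : (X' 2 - x) * dupDen W x 1 = -g 3 := by linear_combination h2 - hψ
  apply mul_right_cancel₀ (pow_ne_zero 2 (hP.ne_zero 3 (by omega)))
  rw [h3]
  linear_combination dupDen W x 1 ^ 2 * e₁ + hs + key -
    (t + x) * ((X' 2 - x) * dupDen W x 1 - g 3) * hc +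
    2 * x * (x * dupDen W x 1 - dupNum W x 1 + g 3) * hψ +
    W.preΨ₄.eval x * h22

/-- The basic algebraic step. -/
lemma step {n i : ℕ} {s : L} (hi : 2 ≤ i) (hn : 1 ≤ n)
    (hs : HasX ((2 * n + i) • P) s)
    (hG : ∀ k, 1 ≤ k → k < 2 * n + i → GoodMul W x y hP.nonsingular k)
    (hD : (X' (n + i) - X' n) * g (n + i) ^ 2 * g n ^ 2 = -(g (2 * n + i) * g i))
    (hD' : 2 ≤ n →
      (X' (n + i) - X' (n - 1)) * g (n + i) ^ 2 * g (n - 1) ^ 2 =
        -(g (2 * n + i - 1) * g (i + 1))) :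
    (X' (n + i) - X' (n + 1)) * g (n + i) ^ 2 * g (n + 1) ^ 2 * g (2 * n + i - 1) =
      -((x - s) * g (2 * n + i) ^ 2 * g (i - 1)) := by
  obtain ⟨i, rfl⟩ : ∃ j, i = j + 2 := ⟨i - 2, by omega⟩
  rcases (by omega : n = 1 ∨ 2 ≤ n) with rfl | hn2
  · have hp := hP.pair_one (X' (i + 3)) (j := i + 2) (s := s) (hG _ (by omega) (by omega))
      rfl (hP.xVal_ne (i + 1))
      (by rwa [show i + 2 + 2 = 2 * 1 + (i + 2) by omega])
      (hG _ (by omega) (by omega))
    have hx : (x - X' (i + 2)) * g (i + 2) ^ 2 = g (i + 3) * g (i + 1) := hP.x_sub_xVal_mul (i + 1)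
    rw [hP.xVal_one, show 2 * 1 + (i + 2) = i + 4 by omega, show 1 + (i + 2) = i + 3 by omega,
      psiVal_one] at hD
    rw [show 2 * 1 + (i + 2) - 1 = i + 3 by omega, show 2 * 1 + (i + 2) = i + 4 by omega,
      show 1 + (i + 2) = i + 3 by omega, show i + 2 - 1 = i + 1 by omega]
    rw [one_pow, mul_one] at hD
    exact step_algebra_one
      (mul_ne_zero (hP.ne_zero (i + 3) (by omega)) (pow_ne_zero 2 (hP.ne_zero (i + 2) (by omega))))
      hp hP.xVal_two (psiVal_two_sq hP.nonsingular.left) hx hD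
  · obtain ⟨n, rfl⟩ : ∃ j, n = j + 2 := ⟨n - 2, by omega⟩
    specialize hD' hn2
    rw [show n + 2 - 1 = n + 1 by omega] at hD'
    rw [show 2 * (n + 2) + (i + 2) - 1 = 2 * n + i + 5 by omega,
      show i + 2 + 1 = i + 3 by omega] at hD'
    rw [show 2 * (n + 2) + (i + 2) - 1 = 2 * n + i + 5 by omega,
      show i + 2 - 1 = i + 1 by omega, show n + 2 + 1 = n + 3 by omega]
    have hA : HasX ((n + 2 + (i + 2)) • P) (X' (n + 2 + (i + 2))) := hG _ (by omega) (by omega)
    have hB : HasX ((n + 2) • P) (X' (n + 2)) := hG _ (by omega) (by omega)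
    have hC : HasX P x := ⟨y, hP.nonsingular, rfl⟩
    have hAB : X' (n + 2 + (i + 2)) ≠ X' (n + 2) := by
      intro h
      rw [h, sub_self, zero_mul, zero_mul, eq_comm, neg_eq_zero] at hD
      exact mul_ne_zero (hP.ne_zero _ (by omega)) (hP.ne_zero _ (by omega)) hD
    obtain ⟨t₁, d₁, ht₁, hd₁, e₁, e₁'⟩ := exists_hasX_add_sub hA hB hAB
    obtain ⟨t₂, d₂, ht₂, hd₂, e₂, e₂'⟩ := exists_hasX_add_sub hB hC (hP.xVal_ne n)
    have hs₁ : t₁ = s := by
      apply ht₁.unique
      rwa [← add_nsmul, show n + 2 + (i + 2) + (n + 2) = 2 * (n + 2) + (i + 2) by omega]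
    have hd₁' : d₁ = X' (i + 2) := by
      apply hd₁.unique
      rw [add_nsmul, add_sub_cancel_left]
      exact hG _ (by omega) (by omega)
    have hs₂ : t₂ = X' (n + 3) := by
      apply ht₂.unique
      rw [← succ_nsmul]
      exact hG _ (by omega) (by omega)
    have hd₂' : d₂ = X' (n + 1) := by
      apply hd₂.unique
      rw [succ_nsmul, add_sub_cancel_right]
      exact hG _ (by omega) (by omega)
    subst hs₁ hd₁' hs₂ hd₂'
    have hxi : (x - X' (i + 2)) * g (i + 2) ^ 2 = g (i + 3) * g (i + 1) := hP.x_sub_xVal_mul (i + 1)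
    have hxn : (x - X' (n + 2)) * g (n + 2) ^ 2 = g (n + 3) * g (n + 1) := hP.x_sub_xVal_mul (n + 1)
    rw [show 2 * (n + 2) + (i + 2) = 2 * n + i + 6 by omega] at hD ⊢
    refine step_algebra
      (mul_ne_zero (pow_ne_zero 2 (hP.ne_zero (i + 2) (by omega))) (hP.ne_zero (i + 3) (by omega)))
      ?_ hxi hxn hD hD'
    linear_combination (norm := (simp only [sumForm, prodForm]; ring1))
      -X' (n + 2 + (i + 2)) * e₂ + e₂' + x * e₁ - e₁'

lemma D_of_goodMul {M : ℕ} (hG : ∀ k, 1 ≤ k → k < M → GoodMul W x y hP.nonsingular k) :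
    ∀ n i : ℕ, 1 ≤ n → 1 ≤ i → 2 * n + i ≤ M →
      (X' (n + i) - X' n) * g (n + i) ^ 2 * g n ^ 2 = -(g (2 * n + i) * g i) := by
  intro n
  induction n using Nat.strong_induction_on with
  | _ n ih =>
    intro i hn hi hM
    rcases (by omega : n = 1 ∨ 2 ≤ n) with rfl | hn2
    · have h := hP.x_sub_xVal_mul i
      rw [hP.xVal_one, psiVal_one, show 1 + i = i + 1 by omega, show 2 * 1 + i = i + 2 by omega]
      linear_combination -h
    · obtain ⟨n, rfl⟩ : ∃ j, n = j + 1 := ⟨n - 1, by omega⟩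
      have hs : GoodMul W x y hP.nonsingular (2 * n + (i + 1)) := hG _ (by omega) (by omega)
      have h1 := hP.step (n := n) (i := i + 1) (by omega) (by omega) hs
        (fun k h1 h2 => hG k h1 (by omega)) (ih n (by omega) (i + 1) (by omega) (by omega)
          (by omega))
        (fun h2 => by
          have := ih (n - 1) (by omega) (i + 2) (by omega) (by omega) (by omega)
          rw [show n - 1 + (i + 2) = n + (i + 1) by omega,
            show 2 * (n - 1) + (i + 2) = 2 * n + (i + 1) - 1 by omega] at this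
          exact this)
      have h2 := hP.x_sub_xVal_mul (2 * n + i)
      rw [show 2 * n + i + 1 = 2 * n + (i + 1) by omega] at h2
      rw [h2, show 2 * n + (i + 1) - 1 = 2 * n + i by omega, add_tsub_cancel_right] at h1
      rw [show n + 1 + i = n + (i + 1) by omega, show 2 * (n + 1) + i = 2 * n + i + 2 by omega]
      apply mul_right_cancel₀ (hP.ne_zero (2 * n + i) (by omega))
      linear_combination h1

/-- All multiples of a generic point have the expected abscissa. -/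
theorem goodMul : ∀ k, 1 ≤ k → GoodMul W x y hP.nonsingular k := by
  intro k
  induction k using Nat.strong_induction_on with
  | _ M ih =>
    intro hM
    rcases (by omega : M = 1 ∨ M = 2 ∨ M = 3 ∨ 4 ≤ M) with rfl | rfl | rfl | hM4
    · exact hP.goodMul_one
    · exact hP.goodMul_two
    · exact hP.goodMul_three
    · obtain ⟨N, rfl⟩ : ∃ N, M = N + 4 := ⟨M - 4, by omega⟩
      have hB : HasX P x := ⟨y, hP.nonsingular, rfl⟩
      obtain ⟨s, d, hs, -, -, -⟩ :=
        exists_hasX_add_sub (ih (N + 3) (by omega) (by omega)) hB (hP.xVal_ne (N + 1))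
      rw [← succ_nsmul] at hs
      suffices h : (x - s) * g (N + 4) ^ 2 = g (N + 5) * g (N + 3) by
        have h' : s = X' (N + 4) := by
          apply mul_right_cancel₀ (pow_ne_zero 2 (hP.ne_zero (N + 4) (by omega)))
          rw [hP.xVal_mul (N + 3)]
          linear_combination -h
        rw [GoodMul, ← h']
        exact hs
      have hD := hP.D_of_goodMul (M := N + 4) (fun k h1 h2 => ih k h2 h1)
      rcases Nat.even_or_odd N with ⟨j, rfl⟩ | ⟨j, rfl⟩
      · -- `M + 1 = 2 * (j + 2) + 1`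
        have h1 := hP.step (n := j + 1) (i := 2) (s := s) le_rfl (by omega)
          (by rwa [show 2 * (j + 1) + 2 = j + j + 3 + 1 by omega])
          (fun k h1 h2 => ih k (by omega) h1) (hD _ _ (by omega) (by omega) (by omega))
          (fun h2 => by
            have := hD (j + 1 - 1) 3 (by omega) (by omega) (by omega)
            rw [show j + 1 - 1 + 3 = j + 1 + 2 by omega,
              show 2 * (j + 1 - 1) + 3 = 2 * (j + 1) + 2 - 1 by omega] at this
            exact this)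
        have hu := hP.xVal_mul (j + 2)
        have hv := hP.xVal_mul (j + 1)
        have hr := psiVal_odd hP.nonsingular.left (j + 1)
        rw [show 2 * (j + 1) + 2 - 1 = j + j + 3 by omega, show 2 * (j + 1) + 2 = j + j + 4 by omega,
          show (2 : ℕ) - 1 = 1 by omega, psiVal_one, mul_one] at h1
        rw [show 2 * (j + 1) + 3 = j + j + 5 by omega] at hr
        linear_combination h1 - g (j + j + 3) * g (j + 2) ^ 2 * hu +
          g (j + j + 3) * g (j + 3) ^ 2 * hv - g (j + j + 3) * hr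
      · -- `M + 1 = 2 * (j + 3)`
        have h1 := hP.step (n := j + 1) (i := 3) (s := s) (by omega) (by omega)
          (by rwa [show 2 * (j + 1) + 3 = 2 * j + 1 + 3 + 1 by omega])
          (fun k h1 h2 => ih k (by omega) h1) (hD _ _ (by omega) (by omega) (by omega))
          (fun h2 => by
            have := hD (j + 1 - 1) 4 (by omega) (by omega) (by omega)
            rw [show j + 1 - 1 + 4 = j + 1 + 3 by omega,
              show 2 * (j + 1 - 1) + 4 = 2 * (j + 1) + 3 - 1 by omega] at this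
            exact this)
        have hu := hP.xVal_mul (j + 3)
        have hv := hP.xVal_mul (j + 1)
        have hr := psiVal_even (W := W) (x := x) (y := y) (j + 1)
        rw [show 2 * (j + 1) + 3 - 1 = 2 * j + 4 by omega, show 2 * (j + 1) + 3 = 2 * j + 5 by omega,
          show (3 : ℕ) - 1 = 2 by omega] at h1
        rw [show 2 * (j + 1) + 4 = 2 * j + 6 by omega] at hr
        apply mul_right_cancel₀ (hP.ne_zero 2 (by omega))
        linear_combination h1 - g (2 * j + 4) * g (j + 2) ^ 2 * hu +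
          g (2 * j + 4) * g (j + 4) ^ 2 * hv - g (2 * j + 4) * hr

lemma D (n i : ℕ) (hn : 1 ≤ n) (hi : 1 ≤ i) :
    (X' (n + i) - X' n) * g (n + i) ^ 2 * g n ^ 2 = -(g (2 * n + i) * g i) :=
  hP.D_of_goodMul (M := 2 * n + i) (fun k h _ => hP.goodMul k h) n i hn hi le_rfl

lemma psiVal_double_sq (j : ℕ) :
    g (2 * (j + 1)) ^ 2 = dupDen W (X' (j + 1)) 1 * g (j + 1) ^ 8 := by
  rcases j with _ | j
  · simp [hP.xVal_one, psiVal_one, psiVal_two_sq hP.nonsingular.left]
  have hA : HasX ((j + 2) • P) (X' (j + 2)) := hP.goodMul _ (by omega)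
  have hB : HasX P x := ⟨y, hP.nonsingular, rfl⟩
  obtain ⟨t, d, ht, hd, e₁, e₁'⟩ := exists_hasX_add_sub hA hB (hP.xVal_ne j)
  have htt : t = X' (j + 3) := by
    apply ht.unique
    rw [← succ_nsmul]; exact hP.goodMul _ (by omega)
  have hdd : d = X' (j + 1) := by
    apply hd.unique
    rw [succ_nsmul, add_sub_cancel_right]; exact hP.goodMul _ (by omega)
  subst htt hdd
  have hne : X' (2 * (j + 2)) ≠ x := by
    rw [show 2 * (j + 2) = 2 * j + 2 + 2 by omega]; exact hP.xVal_ne _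
  have hb : dupDen W (X' (j + 2)) 1 ≠ 0 := by
    intro h0
    have h2 := (two_nsmul_eq_zero_iff hA).mpr h0
    rw [← mul_nsmul'] at h2
    exact (hP.goodMul (2 * (j + 2)) (by omega)).ne_zero h2
  obtain ⟨s, hs, hs'⟩ := exists_hasX_two_nsmul hA hb
  have hss : s = X' (2 * (j + 2)) := by
    apply hs.unique
    rw [← mul_nsmul']; exact hP.goodMul _ (by omega)
  subst hss
  have D₁ := hP.D (j + 2) 1 (by omega) le_rfl
  have D₂ := hP.D (j + 1) 1 (by omega) le_rfl
  rw [psiVal_one, show 2 * (j + 2) + 1 = 2 * j + 5 by omega] at D₁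
  rw [psiVal_one, show 2 * (j + 1) + 1 = 2 * j + 3 by omega] at D₂
  have hm : (x - X' (j + 2)) * g (j + 2) ^ 2 = g (j + 3) * g (j + 1) := hP.x_sub_xVal_mul (j + 1)
  have hM := hP.x_sub_xVal_mul (2 * j + 3)
  rw [show j + 2 + 1 = j + 3 by omega] at D₁
  rw [show j + 1 + 1 = j + 2 by omega] at D₂
  rw [show 2 * j + 3 + 2 = 2 * j + 5 by omega, show 2 * j + 3 + 1 = 2 * j + 4 by omega] at hM
  rw [show 2 * (j + 2) = 2 * j + 4 by omega] at hs' hne
  rw [show j + 1 + 1 = j + 2 by omega, show 2 * (j + 2) = 2 * j + 4 by omega]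
  generalize X' (j + 2) = b at *
  generalize X' (j + 3) = p at *
  generalize X' (j + 1) = q at *
  generalize X' (2 * j + 4) = e at *
  -- `(b-x)²(b-p)(b-q) = -Ψ₂Sq(b)(x - e)`
  have F : (b - x) ^ 2 * (b - p) * (b - q) = -(dupDen W b 1 * (x - e)) := by
    linear_combination (norm := (simp only [sumForm, prodForm, dupDen, dupNum]; ring1))
      -b * e₁ + e₁' - hs'
  have h1 : (x - b) ^ 2 * g (j + 2) ^ 4 = g (j + 3) ^ 2 * g (j + 1) ^ 2 := by
    linear_combination ((x - b) * g (j + 2) ^ 2 + g (j + 3) * g (j + 1)) * hm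
  apply mul_left_cancel₀ (mul_ne_zero (hP.ne_zero (2 * j + 5) (by omega))
    (hP.ne_zero (2 * j + 3) (by omega)))
  linear_combination -(g (2 * j + 4) ^ 2 * g (j + 2) ^ 8) * F +
    dupDen W b 1 * g (j + 2) ^ 8 * hM +
    g (2 * j + 4) ^ 2 * g (j + 2) ^ 4 * (b - p) * (b - q) * h1 -
    g (2 * j + 4) ^ 2 * g (j + 2) ^ 2 * g (j + 1) ^ 2 * (b - q) * D₁ +
    g (2 * j + 4) ^ 2 * g (2 * j + 5) * D₂

lemma xVal_double (j : ℕ) :
    X' (2 * (j + 1)) * dupDen W (X' (j + 1)) 1 = dupNum W (X' (j + 1)) 1 := by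
  have hA : HasX ((j + 1) • P) (X' (j + 1)) := hP.goodMul _ (by omega)
  have hb : dupDen W (X' (j + 1)) 1 ≠ 0 := fun h0 => by
    have h := hP.psiVal_double_sq j
    rw [h0, zero_mul, sq_eq_zero_iff] at h
    exact hP.ne_zero _ (by omega) h
  obtain ⟨s, hs, hs'⟩ := exists_hasX_two_nsmul hA hb
  rw [← hs', hs.unique (t := X' (2 * (j + 1)))]
  rw [← mul_nsmul']; exact hP.goodMul _ (by omega)

lemma eval_Φ_eq (k : ℕ) :
    (W.Φ ((k + 1 : ℕ) : ℤ)).eval x = X' (k + 1) * g (k + 1) ^ 2 := by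
  rw [eval_Φ hP.nonsingular.left, hP.xVal_mul]

lemma eval_ΨSq_double (j : ℕ) :
    (W.ΨSq (2 * (j + 1) : ℕ)).eval x =
      dupDen W ((W.Φ (j + 1 : ℕ)).eval x) ((W.ΨSq (j + 1 : ℕ)).eval x) := by
  rw [eval_ΨSq hP.nonsingular.left, eval_ΨSq hP.nonsingular.left, hP.eval_Φ_eq,
    hP.psiVal_double_sq]
  simp only [dupDen]; ring

lemma eval_Φ_double (j : ℕ) :
    (W.Φ (2 * (j + 1) : ℕ)).eval x =
      dupNum W ((W.Φ (j + 1 : ℕ)).eval x) ((W.ΨSq (j + 1 : ℕ)).eval x) := by
  rw [show 2 * (j + 1) = 2 * j + 1 + 1 by omega, hP.eval_Φ_eq, eval_ΨSq hP.nonsingular.left,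
    hP.eval_Φ_eq, show 2 * j + 1 + 1 = 2 * (j + 1) by omega, hP.psiVal_double_sq, ← mul_assoc,
    hP.xVal_double]
  simp only [dupNum]; ring

lemma eval_Φ_odd (j : ℕ) :
    (W.Φ (2 * (j + 1) + 1 : ℕ)).eval x + x * (W.ΨSq (2 * (j + 1) + 1 : ℕ)).eval x =
      sumForm W ((W.Φ (j + 1 + 1 : ℕ)).eval x) ((W.ΨSq (j + 1 + 1 : ℕ)).eval x)
        ((W.Φ (j + 1 : ℕ)).eval x) ((W.ΨSq (j + 1 : ℕ)).eval x) := by
  have hD := hP.D (j + 1) 1 (by omega) le_rfl
  rw [psiVal_one] at hD
  have hA : HasX ((j + 1 + 1) • P) (X' (j + 1 + 1)) := hP.goodMul _ (by omega)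
  have hB : HasX ((j + 1) • P) (X' (j + 1)) := hP.goodMul _ (by omega)
  have hne : X' (j + 1 + 1) ≠ X' (j + 1) := fun h => by
    rw [h, sub_self, zero_mul, zero_mul, eq_comm, neg_eq_zero, mul_one] at hD
    exact hP.ne_zero _ (by omega) hD
  obtain ⟨t, d, ht, hd, e₁, -⟩ := exists_hasX_add_sub hA hB hne
  have htt : t = X' (2 * (j + 1) + 1) := by
    apply ht.unique
    rw [← add_nsmul, show j + 1 + 1 + (j + 1) = 2 * (j + 1) + 1 by omega]
    exact hP.goodMul _ (by omega)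
  have hdd : d = x := by
    apply hd.unique
    rw [succ_nsmul, add_sub_cancel_left]
    exact ⟨y, hP.nonsingular, rfl⟩
  rw [htt, hdd] at e₁
  simp only [hP.eval_Φ_eq, eval_ΨSq hP.nonsingular.left]
  calc X' (2 * (j + 1) + 1) * g (2 * (j + 1) + 1) ^ 2 + x * g (2 * (j + 1) + 1) ^ 2
      = (X' (2 * (j + 1) + 1) + x) *
          ((X' (j + 1 + 1) - X' (j + 1)) * g (j + 1 + 1) ^ 2 * g (j + 1) ^ 2) ^ 2 := by
        rw [hD]; ring
    _ = sumForm W (X' (j + 1 + 1)) 1 (X' (j + 1)) 1 * (g (j + 1 + 1) ^ 4 * g (j + 1) ^ 4) := by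
        rw [← e₁]; ring
    _ = _ := by simp only [sumForm]; ring

end IsGenericPt


end Fermat.Agent.EllTorsion
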