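import Fermat.Agent.EllTorsion.Mul
import Mathlib.RingTheory.Valuation.ValuationSubring
import Mathlib.RingTheory.Valuation.Integral
import Mathlib.Algebra.GCDMonoid.IntegrallyClosed
import Mathlib.RingTheory.Bezout
import Mathlib.RingTheory.IntegralClosure.IsIntegralClosure.Basic
import Mathlib.RingTheory.Polynomial.IntegralNormalization

/-!
# Integrality of torsion coordinates
-/

set_option autoImplicit false

open Polynomial WeierstrassCurve

namespace Fermat.Agent.EllTorsion

variable {R K : Type*} [CommRing R] [Field K] [DecidableEq K] [Algebra R K]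

/-- `n² x` is integral for an `n`-torsion point of a curve with coefficients in `R`. -/
theorem isIntegral_sq_mul_X [IsDomain R] (W₀ : WeierstrassCurve R) {n : ℕ} (hn : (n : R) ≠ 0)
    {x y : K} (h : (W₀.map (algebraMap R K)).toAffine.Nonsingular x y)
    (hP : n • Affine.Point.some x y h = 0) : IsIntegral R ((n : K) ^ 2 * x) := by
  have h0 : aeval x (W₀.ΨSq (n : ℤ)) = 0 := by
    rw [aeval_def, ← eval_map, ← WeierstrassCurve.map_ΨSq]
    exact (nsmul_eq_zero_iff h n).mp hP
  have hi := isIntegral_leadingCoeff_smul _ x h0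
  rw [W₀.leadingCoeff_ΨSq (by rwa [Int.cast_natCast]), Algebra.smul_def] at hi
  simpa using hi

/-- Torsion of order invertible in `R` has integral coordinates. -/
theorem isIntegral_of_nsmul_eq_zero [IsDomain R] (W₀ : WeierstrassCurve R) {n : ℕ}
    (hn : IsUnit (n : R)) {x y : K} (h : (W₀.map (algebraMap R K)).toAffine.Nonsingular x y)
    (hP : n • Affine.Point.some x y h = 0) : IsIntegral R x ∧ IsIntegral R y := by
  have hx : IsIntegral R x := by
    obtain ⟨v, hv⟩ := hn.pow 2
    have hi := isIntegral_sq_mul_X W₀ hn.ne_zero h hP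
    have := IsIntegral.mul (isIntegral_algebraMap (R := R) (A := K) (x := (↑v⁻¹ : R))) hi
    rwa [← mul_assoc, ← map_natCast (algebraMap R K) n, ← map_pow, ← map_mul, ← hv,
      Units.inv_mul, map_one, one_mul] at this
  refine ⟨hx, ?_⟩
  have he := (Affine.equation_iff _ _).mp h.1
  simp only [WeierstrassCurve.map, WeierstrassCurve.toAffine] at he
  let p : (integralClosure R K)[X] :=
    X ^ 2 + C (algebraMap R _ W₀.a₁ * ⟨x, hx⟩ + algebraMap R _ W₀.a₃) * X -
      C (⟨x, hx⟩ ^ 3 + algebraMap R _ W₀.a₂ * ⟨x, hx⟩ ^ 2 + algebraMap R _ W₀.a₄ * ⟨x, hx⟩ +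
        algebraMap R _ W₀.a₆)
  have hp : p.Monic := by
    unfold p; monicity!
  have : IsIntegral (integralClosure R K) y := ⟨p, hp, by
    simp only [p, eval₂_sub, eval₂_add, eval₂_pow, eval₂_X, eval₂_mul, eval₂_C, map_add, map_mul,
      map_pow, ← IsScalarTower.algebraMap_apply, Subalgebra.algebraMap_apply]
    linear_combination he⟩
  exact isIntegral_trans (A := integralClosure R K) y this

section ValuationSubring

/-- A torsion point of order invertible in a valuation ring `A` has both coordinates in `A`,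
provided the coefficients of the curve are in `A`. -/
theorem mem_of_nsmul_eq_zero (A : ValuationSubring K) {W : WeierstrassCurve.Affine K}
    (h₁ : W.a₁ ∈ A) (h₂ : W.a₂ ∈ A) (h₃ : W.a₃ ∈ A) (h₄ : W.a₄ ∈ A) (h₆ : W.a₆ ∈ A)
    {n : ℕ} (hn : IsUnit (n : A)) {x y : K} (h : W.Nonsingular x y)
    (hP : n • Affine.Point.some x y h = 0) : x ∈ A ∧ y ∈ A := by
  let W₀ : WeierstrassCurve A := ⟨⟨_, h₁⟩, ⟨_, h₂⟩, ⟨_, h₃⟩, ⟨_, h₄⟩, ⟨_, h₆⟩⟩
  obtain ⟨hx, hy⟩ := isIntegral_of_nsmul_eq_zero (K := K) W₀ hn (x := x) (y := y) h hP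
  obtain ⟨a, ha⟩ := IsIntegrallyClosed.isIntegral_iff.mp hx
  obtain ⟨b, hb⟩ := IsIntegrallyClosed.isIntegral_iff.mp hy
  exact ⟨ha ▸ a.2, hb ▸ b.2⟩

end ValuationSubring

end Fermat.Agent.EllTorsion
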