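import Fermat.Agent.EllTorsion.Universal

/-!
# The multiplication formula

For every nonsingular point `(x, y)` of a Weierstrass curve over a field and every integer `n`,
the pair `(Φₙ(x), ΨSqₙ(x))` is a nonzero multiple of the `xRep` of `n • (x, y)`.
In particular `n • (x, y) = 0` iff `ΨSqₙ(x) = 0`.
-/

set_option autoImplicit false

open Polynomial WeierstrassCurve

namespace Fermat.Agent.EllTorsion

variable {F : Type*} [Field F] {W : WeierstrassCurve.Affine F}

lemma dupNum_mul (c u w : F) : dupNum W (c * u) (c * w) = c ^ 4 * dupNum W u w := by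
  simp only [dupNum]; ring

lemma dupDen_mul (c u w : F) : dupDen W (c * u) (c * w) = c ^ 4 * dupDen W u w := by
  simp only [dupDen]; ring

lemma sumForm_mul (c d u₁ w₁ u₂ w₂ : F) :
    sumForm W (c * u₁) (c * w₁) (d * u₂) (d * w₂) = c ^ 2 * d ^ 2 * sumForm W u₁ w₁ u₂ w₂ := by
  simp only [sumForm]; ring

/-- At a point of order two the numerator of duplication does not vanish. -/
lemma dupNum_ne_zero {b y : F} (h : W.Nonsingular b y) (h0 : dupDen W b 1 = 0) :
    dupNum W b 1 ≠ 0 := by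
  obtain ⟨hE, hns⟩ := (Affine.nonsingular_iff' _ _).mp h
  rw [← psi_sq_of_equation hE, sq_eq_zero_iff] at h0
  have hX := hns.resolve_right (fun h => h h0)
  have he := (Affine.equation_iff _ _).mp hE
  have key : dupNum W b 1 = (W.a₁ * y - (3 * b ^ 2 + 2 * W.a₂ * b + W.a₄)) ^ 2 := by
    simp only [dupNum, WeierstrassCurve.b₄, WeierstrassCurve.b₆, WeierstrassCurve.b₈]
    linear_combination ((W.a₁ ^ 2 + 4 * W.a₂ + 8 * b)) * he +
      (W.a₁ * (3 * b ^ 2 + 2 * W.a₂ * b + W.a₄ - W.a₁ * y) -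
        (W.a₂ + 2 * b) * (2 * y + W.a₁ * b + W.a₃)) * h0
  rw [key]
  exact pow_ne_zero 2 hX

variable [DecidableEq F]

/-- Duplication on representatives. -/
lemma exists_xRep_two_nsmul (Q : W.Point) :
    ∃ c, c ≠ 0 ∧ dupNum W (Q.xRep 0) (Q.xRep 1) = c * ((2 : ℕ) • Q).xRep 0 ∧
      dupDen W (Q.xRep 0) (Q.xRep 1) = c * ((2 : ℕ) • Q).xRep 1 := by
  cases Q with
  | zero => exact ⟨1, one_ne_zero, by simp [← Affine.Point.zero_def, dupNum],
      by simp [← Affine.Point.zero_def, dupDen]⟩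
  | some b y h =>
    have hB : HasX (Affine.Point.some b y h) b := ⟨y, h, rfl⟩
    simp only [Affine.Point.xRep_some, Matrix.cons_val_zero, Matrix.cons_val_one]
    by_cases hd : dupDen W b 1 = 0
    · exact ⟨dupNum W b 1, dupNum_ne_zero h hd, by simp [(two_nsmul_eq_zero_iff hB).mpr hd],
        by simp [(two_nsmul_eq_zero_iff hB).mpr hd, hd]⟩
    · obtain ⟨s, hs, hs'⟩ := exists_hasX_two_nsmul hB hd
      exact ⟨dupDen W b 1, hd, by simp [hs.xRep, ← hs', mul_comm], by simp [hs.xRep]⟩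

/-- Addition with known affine difference on representatives. -/
lemma exists_xRep_add {A B P : W.Point} {x : F} (hP : HasX P x) (hAB : A - B = P) :
    ∃ c, c ≠ 0 ∧
      sumForm W (A.xRep 0) (A.xRep 1) (B.xRep 0) (B.xRep 1) -
          x * (A.xRep 0 * B.xRep 1 - B.xRep 0 * A.xRep 1) ^ 2 = c * (A + B).xRep 0 ∧
      (A.xRep 0 * B.xRep 1 - B.xRep 0 * A.xRep 1) ^ 2 = c * (A + B).xRep 1 := by
  cases A with
  | zero =>
    rw [← Affine.Point.zero_def, zero_sub] at hAB
    obtain rfl : B = -P := by rw [← hAB, neg_neg]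
    refine ⟨1, one_ne_zero, ?_, ?_⟩
    · simp [← Affine.Point.zero_def, hP.xRep, sumForm]; ring
    · simp [← Affine.Point.zero_def, hP.xRep]
  | some a y₁ h₁ =>
    cases B with
    | zero =>
      rw [← Affine.Point.zero_def, sub_zero] at hAB
      subst hAB
      obtain rfl : a = x := HasX.unique ⟨y₁, h₁, rfl⟩ hP
      refine ⟨1, one_ne_zero, ?_, ?_⟩
      · simp [← Affine.Point.zero_def, sumForm]; ring
      · simp [← Affine.Point.zero_def]
    | some b y₂ h₂ =>
      simp only [Affine.Point.xRep_some, Matrix.cons_val_zero, Matrix.cons_val_one, mul_one]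
      by_cases hab : a = b
      · subst hab
        have hne : Affine.Point.some a y₁ h₁ ≠ Affine.Point.some a y₂ h₂ := fun h => by
          rw [h, sub_self] at hAB; exact hP.ne_zero hAB.symm
        have hneg := (Affine.Point.X_eq_iff.mp rfl).resolve_left hne
        rw [hneg, neg_add_cancel]
        have h2 : (2 : ℕ) • Affine.Point.some a y₂ h₂ ≠ 0 := fun h => by
          rw [hneg, sub_eq_add_neg, ← neg_add, ← two_nsmul, h, neg_zero] at hAB
          exact hP.ne_zero hAB.symm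
        rw [Ne, two_nsmul_eq_zero_iff (⟨y₂, h₂, rfl⟩ : HasX _ a)] at h2
        exact ⟨dupDen W a 1, h2, by simp [sumForm_self], by simp⟩
      · obtain ⟨s, d, hs, hd, e₁, -⟩ :=
          exists_hasX_add_sub (⟨y₁, h₁, rfl⟩ : HasX (Affine.Point.some a y₁ h₁) a)
            (⟨y₂, h₂, rfl⟩ : HasX (Affine.Point.some b y₂ h₂) b) hab
        rw [hAB] at hd
        rw [hd.unique hP] at e₁
        refine ⟨(a - b) ^ 2, pow_ne_zero 2 (sub_ne_zero.mpr hab), ?_, ?_⟩
        · simp only [hs.xRep, Matrix.cons_val_zero]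
          linear_combination -e₁
        · simp [hs.xRep]

variable {x y : F} (h : W.Nonsingular x y)

/-- **Multiplication formula**, natural number version. -/
theorem exists_nsmul_xRep (n : ℕ) :
    ∃ c, c ≠ 0 ∧ (W.Φ (n : ℤ)).eval x = c * (n • Affine.Point.some x y h).xRep 0 ∧
      (W.ΨSq (n : ℤ)).eval x = c * (n • Affine.Point.some x y h).xRep 1 := by
  induction n using Nat.strong_induction_on with
  | _ n ih =>
    rcases (by omega : n = 0 ∨ n = 1 ∨ 2 ≤ n) with rfl | rfl | hn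
    · exact ⟨1, one_ne_zero, by simp, by simp⟩
    · exact ⟨1, one_ne_zero, by simp, by simp⟩
    obtain ⟨j, rfl | rfl⟩ : ∃ j, n = 2 * j ∨ n = 2 * j + 1 := ⟨n / 2, by omega⟩
    · obtain ⟨c, hc, h₀, h₁⟩ := ih j (by omega)
      obtain ⟨d, hd, e₀, e₁⟩ := exists_xRep_two_nsmul (j • Affine.Point.some x y h)
      refine ⟨c ^ 4 * d, mul_ne_zero (pow_ne_zero 4 hc) hd, ?_, ?_⟩
      · rw [eval_Φ_two_mul, h₀, h₁, dupNum_mul, e₀, mul_nsmul', mul_assoc]
      · rw [eval_ΨSq_two_mul, h₀, h₁, dupDen_mul, e₁, mul_nsmul', mul_assoc]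
    · obtain ⟨c, hc, hA₀, hA₁⟩ := ih (j + 1) (by omega)
      obtain ⟨d, hd, hB₀, hB₁⟩ := ih j (by omega)
      obtain ⟨e, he, e₀, e₁⟩ := exists_xRep_add (A := (j + 1) • Affine.Point.some x y h)
        (B := j • Affine.Point.some x y h) ⟨y, h, rfl⟩ (by rw [succ_nsmul, add_sub_cancel_left])
      rw [← add_nsmul, show j + 1 + j = 2 * j + 1 by omega] at e₀ e₁
      refine ⟨c ^ 2 * d ^ 2 * e, mul_ne_zero (mul_ne_zero (pow_ne_zero 2 hc) (pow_ne_zero 2 hd)) he,
        ?_, ?_⟩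
      · rw [eq_sub_of_add_eq (eval_Φ_two_mul_add_one W x j), eval_ΨSq_two_mul_add_one W x j,
          hA₀, hA₁, hB₀, hB₁, sumForm_mul]
        linear_combination c ^ 2 * d ^ 2 * e₀
      · rw [eval_ΨSq_two_mul_add_one W x j, hA₀, hA₁, hB₀, hB₁]
        linear_combination c ^ 2 * d ^ 2 * e₁

/-- **Multiplication formula**. -/
theorem exists_smul_xRep (n : ℤ) :
    ∃ c, c ≠ 0 ∧ (W.Φ n).eval x = c * (n • Affine.Point.some x y h).xRep 0 ∧
      (W.ΨSq n).eval x = c * (n • Affine.Point.some x y h).xRep 1 := by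
  obtain ⟨m, rfl | rfl⟩ := n.eq_nat_or_neg
  · simpa only [natCast_zsmul] using exists_nsmul_xRep h m
  · simpa only [neg_zsmul, natCast_zsmul, Affine.Point.xRep_neg, Φ_neg, ΨSq_neg] using
      exists_nsmul_xRep h m

/-- `n • P = 0` iff the abscissa is a root of `ΨSqₙ`. -/
theorem zsmul_eq_zero_iff (n : ℤ) :
    n • Affine.Point.some x y h = 0 ↔ (W.ΨSq n).eval x = 0 := by
  obtain ⟨c, hc, -, h1⟩ := exists_smul_xRep h n
  rw [h1]
  cases n • Affine.Point.some x y h with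
  | zero => simp [← Affine.Point.zero_def]
  | some x' y' h' => simp [hc]

theorem nsmul_eq_zero_iff (n : ℕ) :
    n • Affine.Point.some x y h = 0 ↔ (W.ΨSq (n : ℤ)).eval x = 0 := by
  rw [← zsmul_eq_zero_iff h, natCast_zsmul]

theorem ΨSq_eval_ne_zero_of_nsmul_ne_zero {n : ℕ} (hn : n • Affine.Point.some x y h ≠ 0) :
    (W.ΨSq (n : ℤ)).eval x ≠ 0 :=
  fun h0 => hn ((nsmul_eq_zero_iff h n).mpr h0)

/-- The abscissa of `n • P` is `Φₙ / ΨSqₙ`. -/
theorem X_zsmul {n : ℤ} {x' y' : F} {h' : W.Nonsingular x' y'}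
    (hn : n • Affine.Point.some x y h = Affine.Point.some x' y' h') :
    (W.ΨSq n).eval x ≠ 0 ∧ x' * (W.ΨSq n).eval x = (W.Φ n).eval x := by
  obtain ⟨c, hc, h0, h1⟩ := exists_smul_xRep h n
  rw [h0, h1, hn]
  simp [hc, mul_comm]

theorem X_nsmul {n : ℕ} {x' y' : F} {h' : W.Nonsingular x' y'}
    (hn : n • Affine.Point.some x y h = Affine.Point.some x' y' h') :
    (W.ΨSq (n : ℤ)).eval x ≠ 0 ∧ x' * (W.ΨSq (n : ℤ)).eval x = (W.Φ (n : ℤ)).eval x :=
  X_zsmul h (by rwa [natCast_zsmul])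

include h in
/-- `Φₙ` and `ΨSqₙ` have no common root at the abscissa of a nonsingular point. -/
theorem Φ_ΨSq_no_common_root (n : ℤ) :
    (W.Φ n).eval x ≠ 0 ∨ (W.ΨSq n).eval x ≠ 0 := by
  obtain ⟨c, hc, h0, h1⟩ := exists_smul_xRep h n
  rw [h0, h1]
  cases n • Affine.Point.some x y h with
  | zero => simp [← Affine.Point.zero_def, hc]
  | some x' y' h' => simp [hc]

/-- For odd `n`, `n • P = 0` iff `preΨ' n` vanishes at the abscissa. -/
theorem preΨ'_eval_eq_zero_iff {n : ℕ} (hn : Odd n) :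
    (W.preΨ' n).eval x = 0 ↔ n • Affine.Point.some x y h = 0 := by
  rw [nsmul_eq_zero_iff h, ΨSq_ofNat, if_neg (Nat.not_even_iff_odd.mpr hn), mul_one, eval_pow,
    sq_eq_zero_iff]

theorem preΨ'_eval_eq_zero {n : ℕ} (hn : Odd n) (hP : n • Affine.Point.some x y h = 0) :
    (W.preΨ' n).eval x = 0 :=
  (preΨ'_eval_eq_zero_iff h hn).mpr hP

end Fermat.Agent.EllTorsion
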