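import Fermat.Agent.EllTorsion.Generic
import Mathlib.AlgebraicGeometry.EllipticCurve.DivisionPolynomial.Degree
import Mathlib.FieldTheory.IsAlgClosed.AlgebraicClosure
import Mathlib.Algebra.MvPolynomial.CommRing
import Mathlib.RingTheory.Polynomial.UniqueFactorization

/-!
# Doubling identities for division polynomials over any ring

The identities are checked at a generic point of the universal Weierstrass curve and specialised.
-/

set_option autoImplicit false

open Polynomial WeierstrassCurve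

namespace Fermat.Agent.EllTorsion

/-- Coefficient ring of the universal curve, with a variable for the abscissa. -/
abbrev URing : Type := Polynomial (MvPolynomial (Fin 5) ℤ)

/-- Universal Weierstrass curve over its coefficient ring. -/
noncomputable def univCurve₀ : WeierstrassCurve (MvPolynomial (Fin 5) ℤ) where
  a₁ := MvPolynomial.X 0
  a₂ := MvPolynomial.X 1
  a₃ := MvPolynomial.X 2
  a₄ := MvPolynomial.X 3
  a₆ := MvPolynomial.X 4

/-- Universal curve, base changed to the ring with the abscissa variable. -/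
noncomputable def univCurve : WeierstrassCurve URing := univCurve₀.map C

/-- Specialisation homomorphism. -/
noncomputable def special {R : Type*} [CommRing R] (W : WeierstrassCurve R) (t : R) :
    URing →+* R :=
  Polynomial.eval₂RingHom
    (MvPolynomial.eval₂Hom (Int.castRingHom R) ![W.a₁, W.a₂, W.a₃, W.a₄, W.a₆]) t

lemma special_X {R : Type*} [CommRing R] (W : WeierstrassCurve R) (t : R) :
    special W t X = t := by
  simp [special]

lemma map_special {R : Type*} [CommRing R] (W : WeierstrassCurve R) (t : R) :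
    univCurve.map (special W t) = W := by
  ext <;> simp [univCurve, univCurve₀, special]

lemma eval_map_C (p : (MvPolynomial (Fin 5) ℤ)[X]) : (p.map C).eval X = p := by
  rw [eval_map, eval₂_C_X]

lemma eval_map_hom {R S : Type*} [CommRing R] [CommRing S] (f : R →+* S) (p : R[X]) (t : R) :
    (p.map f).eval (f t) = f (p.eval t) := by
  rw [eval_map, eval₂_at_apply]

lemma univ_Δ_ne_zero : univCurve.Δ ≠ 0 := by
  intro h
  have h1 := congrArg (special (⟨0, 0, 0, -1, 0⟩ : WeierstrassCurve ℤ) 0) h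
  rw [← WeierstrassCurve.map_Δ, map_special, map_zero] at h1
  norm_num [WeierstrassCurve.Δ, WeierstrassCurve.b₂, WeierstrassCurve.b₄, WeierstrassCurve.b₆,
    WeierstrassCurve.b₈] at h1

lemma univ_ΨSq_ne_zero {n : ℕ} (hn : n ≠ 0) :
    (univCurve.ΨSq (n : ℤ)).eval X ≠ 0 := by
  rw [univCurve, WeierstrassCurve.map_ΨSq, eval_map_C]
  refine univCurve₀.ΨSq_ne_zero ?_
  rw [← map_intCast (MvPolynomial.C (σ := Fin 5) (R := ℤ)), Ne, MvPolynomial.C_eq_zero]
  simpa using hn

/-- A generic point on the universal curve. -/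
lemma exists_genericPt :
    ∃ (L : Type) (_ : Field L) (ι : URing →+* L), Function.Injective ι ∧
      ∃ y : L, IsGenericPt (univCurve.map ι).toAffine (ι X) y := by
  classical
  let L := AlgebraicClosure (FractionRing URing)
  let ι : URing →+* L :=
    (algebraMap (FractionRing URing) L).comp (algebraMap URing (FractionRing URing))
  have hι : Function.Injective ι :=
    (algebraMap (FractionRing URing) L).injective.comp (IsFractionRing.injective _ _)
  refine ⟨L, inferInstance, ι, hι, ?_⟩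
  let W : WeierstrassCurve.Affine L := univCurve.map ι
  obtain ⟨y, hy⟩ := IsAlgClosed.exists_root
    (C 1 * X ^ 2 + C (W.a₁ * ι X + W.a₃) * X +
      C (-((ι X) ^ 3 + W.a₂ * (ι X) ^ 2 + W.a₄ * ι X + W.a₆)))
    (by rw [degree_quadratic one_ne_zero]; decide)
  have hE : W.Equation (ι X) y := by
    rw [Affine.equation_iff]
    simp only [IsRoot, eval_add, eval_mul, eval_C, eval_pow, eval_X] at hy
    linear_combination hy
  have hns : W.Nonsingular (ι X) y := by
    refine (Affine.equation_iff_nonsingular_of_Δ_ne_zero ?_).mp hE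
    rw [show W = univCurve.map ι from rfl, WeierstrassCurve.map_Δ]
    exact (map_ne_zero_iff ι hι).mpr univ_Δ_ne_zero
  refine ⟨y, hns, fun k hk h0 => univ_ΨSq_ne_zero hk ?_⟩
  apply hι
  have h := eval_ΨSq hE k
  rw [h0, zero_pow two_ne_zero, show W = univCurve.map ι from rfl, WeierstrassCurve.map_ΨSq,
    eval_map_hom] at h
  rw [map_zero]; exact h

section Identities

variable {R : Type*} [CommRing R] (W : WeierstrassCurve R) (t : R)

/-- `Φ₂ₙ = Φ₂(Φₙ, ΨSqₙ)`. -/
theorem eval_Φ_two_mul (n : ℕ) :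
    (W.Φ (2 * n : ℕ)).eval t = dupNum W ((W.Φ n).eval t) ((W.ΨSq n).eval t) := by
  rcases n with _ | j
  · simp [dupNum]
  obtain ⟨L, _, ι, hι, y, hP⟩ := exists_genericPt
  classical
  have h : (univCurve.Φ (2 * (j + 1) : ℕ)).eval X =
      dupNum univCurve ((univCurve.Φ (j + 1 : ℕ)).eval X) ((univCurve.ΨSq (j + 1 : ℕ)).eval X) := by
    apply hι
    rw [← map_dupNum, ← eval_map_hom, ← eval_map_hom, ← eval_map_hom, ← map_Φ, ← map_Φ, ← map_ΨSq]
    exact hP.eval_Φ_double j
  have h' := congrArg (special W t) h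
  rwa [← map_dupNum, ← eval_map_hom, ← eval_map_hom, ← eval_map_hom, ← map_Φ, ← map_Φ, ← map_ΨSq,
    map_special, special_X] at h'

/-- `ΨSq₂ₙ = ΨSq₂(Φₙ, ΨSqₙ)`. -/
theorem eval_ΨSq_two_mul (n : ℕ) :
    (W.ΨSq (2 * n : ℕ)).eval t = dupDen W ((W.Φ n).eval t) ((W.ΨSq n).eval t) := by
  rcases n with _ | j
  · simp [dupDen]
  obtain ⟨L, _, ι, hι, y, hP⟩ := exists_genericPt
  classical
  have h : (univCurve.ΨSq (2 * (j + 1) : ℕ)).eval X =
      dupDen univCurve ((univCurve.Φ (j + 1 : ℕ)).eval X) ((univCurve.ΨSq (j + 1 : ℕ)).eval X) := by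
    apply hι
    rw [← map_dupDen, ← eval_map_hom, ← eval_map_hom, ← eval_map_hom, ← map_Φ, ← map_ΨSq, ← map_ΨSq]
    exact hP.eval_ΨSq_double j
  have h' := congrArg (special W t) h
  rwa [← map_dupDen, ← eval_map_hom, ← eval_map_hom, ← eval_map_hom, ← map_Φ, ← map_ΨSq, ← map_ΨSq,
    map_special, special_X] at h'

/-- `Φ₂ₙ₊₁ + X ΨSq₂ₙ₊₁` is the sum form at the `n+1`-st and `n`-th terms. -/
theorem eval_Φ_two_mul_add_one (n : ℕ) :
    (W.Φ (2 * n + 1 : ℕ)).eval t + t * (W.ΨSq (2 * n + 1 : ℕ)).eval t =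
      sumForm W ((W.Φ (n + 1 : ℕ)).eval t) ((W.ΨSq (n + 1 : ℕ)).eval t)
        ((W.Φ n).eval t) ((W.ΨSq n).eval t) := by
  rcases n with _ | j
  · simp [sumForm]; ring
  obtain ⟨L, _, ι, hι, y, hP⟩ := exists_genericPt
  classical
  have h : (univCurve.Φ (2 * (j + 1) + 1 : ℕ)).eval X +
        X * (univCurve.ΨSq (2 * (j + 1) + 1 : ℕ)).eval X =
      sumForm univCurve ((univCurve.Φ (j + 1 + 1 : ℕ)).eval X)
        ((univCurve.ΨSq (j + 1 + 1 : ℕ)).eval X)
        ((univCurve.Φ (j + 1 : ℕ)).eval X) ((univCurve.ΨSq (j + 1 : ℕ)).eval X) := by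
    apply hι
    simp only [map_add, map_mul, ← map_sumForm, ← eval_map_hom, ← map_Φ, ← map_ΨSq]
    exact hP.eval_Φ_odd j
  have h' := congrArg (special W t) h
  simp only [map_add, map_mul, ← map_sumForm, ← eval_map_hom, ← map_Φ, ← map_ΨSq, map_special,
    special_X] at h'
  exact h'

/-- The odd division polynomials: immediate from the recurrence. -/
theorem eval_preΨ_two_mul_add_one (n : ℕ) :
    (W.preΨ (2 * n + 1 : ℕ)).eval t =
      (W.Φ n).eval t * (W.ΨSq (n + 1 : ℕ)).eval t -
        (W.Φ (n + 1 : ℕ)).eval t * (W.ΨSq n).eval t := by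
  push_cast
  simp only [W.preΨ_odd, WeierstrassCurve.Φ, WeierstrassCurve.ΨSq, Int.even_add_one,
    add_sub_cancel_right, show (n : ℤ) + 1 + 1 = (n : ℤ) + 2 by ring]
  split_ifs <;>
    simp only [eval_sub, eval_mul, eval_pow, eval_X, eval_one] <;> ring

theorem eval_ΨSq_two_mul_add_one (n : ℕ) :
    (W.ΨSq (2 * n + 1 : ℕ)).eval t =
      ((W.Φ (n + 1 : ℕ)).eval t * (W.ΨSq n).eval t -
        (W.Φ n).eval t * (W.ΨSq (n + 1 : ℕ)).eval t) ^ 2 := by
  rw [WeierstrassCurve.ΨSq, if_neg (by simp), mul_one, eval_pow,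
    eval_preΨ_two_mul_add_one]
  ring

end Identities

end Fermat.Agent.EllTorsion
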