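import Mathlib.AlgebraicGeometry.EllipticCurve.Affine.Point
import Mathlib.AlgebraicGeometry.EllipticCurve.DivisionPolynomial.Basic
import Mathlib.Tactic.LinearCombination
import Mathlib.Tactic.FieldSimp

/-!
# x-coordinates of sums and differences on a Weierstrass curve
-/

set_option autoImplicit false

open Polynomial WeierstrassCurve

namespace Fermat.Agent.EllTorsion

variable {F : Type*} [Field F] {W : WeierstrassCurve.Affine F}

/-- `Q` is an affine point with abscissa `t`. -/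
def HasX (Q : W.Point) (t : F) : Prop :=
  ∃ (y : F) (h : W.Nonsingular t y), Q = Affine.Point.some t y h

section Forms

variable {R : Type*} [CommRing R]

/-- Bihomogeneous form giving `x(P+Q) + x(P-Q)` up to the square of `u₁w₂ - u₂w₁`. -/
def sumForm (W : WeierstrassCurve R) (u₁ w₁ u₂ w₂ : R) : R :=
  2 * u₁ * u₂ * (u₁ * w₂ + u₂ * w₁) + W.b₂ * u₁ * u₂ * w₁ * w₂ +
    W.b₄ * (u₁ * w₂ + u₂ * w₁) * w₁ * w₂ + W.b₆ * w₁ ^ 2 * w₂ ^ 2

/-- `x(P+Q) * x(P-Q)` up to `(x(P)-x(Q))²`. -/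
def prodForm (W : WeierstrassCurve R) (a b : R) : R :=
  a ^ 2 * b ^ 2 - W.b₄ * a * b - W.b₆ * (a + b) - W.b₈

/-- Numerator of the duplication map. -/
def dupNum (W : WeierstrassCurve R) (u w : R) : R :=
  u ^ 4 - W.b₄ * u ^ 2 * w ^ 2 - 2 * W.b₆ * u * w ^ 3 - W.b₈ * w ^ 4

/-- Denominator of the duplication map. -/
def dupDen (W : WeierstrassCurve R) (u w : R) : R :=
  w * (4 * u ^ 3 + W.b₂ * u ^ 2 * w + 2 * W.b₄ * u * w ^ 2 + W.b₆ * w ^ 3)

lemma map_sumForm {S : Type*} [CommRing S] (f : R →+* S) (W : WeierstrassCurve R) (a b c d : R) :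
    sumForm (W.map f) (f a) (f b) (f c) (f d) = f (sumForm W a b c d) := by
  simp [sumForm, map_ofNat]

lemma map_dupNum {S : Type*} [CommRing S] (f : R →+* S) (W : WeierstrassCurve R) (a b : R) :
    dupNum (W.map f) (f a) (f b) = f (dupNum W a b) := by
  simp [dupNum, map_ofNat]

lemma map_dupDen {S : Type*} [CommRing S] (f : R →+* S) (W : WeierstrassCurve R) (a b : R) :
    dupDen (W.map f) (f a) (f b) = f (dupDen W a b) := by
  simp [dupDen, map_ofNat]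

end Forms

lemma eval_Ψ₂Sq (t : F) : W.Ψ₂Sq.eval t = dupDen W t 1 := by
  simp [WeierstrassCurve.Ψ₂Sq, dupDen]

lemma eval_Φ_two (t : F) : (W.Φ 2).eval t = dupNum W t 1 := by
  simp [dupNum]

lemma sumForm_self (t : F) : sumForm W t 1 t 1 = dupDen W t 1 := by
  simp only [sumForm, dupDen]; ring1

lemma psi_sq_of_equation {x y : F} (h : W.Equation x y) :
    (2 * y + W.a₁ * x + W.a₃) ^ 2 = dupDen W x 1 := by
  rw [Affine.equation_iff] at h
  simp only [dupDen, WeierstrassCurve.b₂, WeierstrassCurve.b₄, WeierstrassCurve.b₆]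
  linear_combination 4 * h

namespace HasX

lemma ne_zero {Q : W.Point} {t : F} (h : HasX Q t) : Q ≠ 0 := by
  obtain ⟨y, hy, rfl⟩ := h
  exact Affine.Point.some_ne_zero hy

lemma unique {Q : W.Point} {s t : F} (h₁ : HasX Q s) (h₂ : HasX Q t) : s = t := by
  obtain ⟨y, hy, rfl⟩ := h₁
  obtain ⟨z, hz, he⟩ := h₂
  exact (Affine.Point.some.inj he).1

lemma neg {Q : W.Point} {t : F} (h : HasX Q t) : HasX (-Q) t := by
  obtain ⟨y, hy, rfl⟩ := h
  exact ⟨_, _, Affine.Point.neg_some hy⟩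

lemma xRep {Q : W.Point} {t : F} (h : HasX Q t) : Q.xRep = ![t, 1] := by
  obtain ⟨y, hy, rfl⟩ := h
  rfl

end HasX

lemma exists_hasX {Q : W.Point} (hQ : Q ≠ 0) : ∃ t, HasX Q t := by
  cases Q with
  | zero => exact absurd rfl hQ
  | some x y h => exact ⟨x, y, h, rfl⟩

variable [DecidableEq F]

/-- Sum and product of `x(P+Q)` and `x(P-Q)`. -/
theorem exists_hasX_add_sub {A B : W.Point} {a b : F} (hA : HasX A a) (hB : HasX B b)
    (hab : a ≠ b) :
    ∃ s d, HasX (A + B) s ∧ HasX (A - B) d ∧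
      (s + d) * (a - b) ^ 2 = sumForm W a 1 b 1 ∧ s * d * (a - b) ^ 2 = prodForm W a b := by
  obtain ⟨y₁, h₁, rfl⟩ := hA
  obtain ⟨y₂, h₂, rfl⟩ := hB
  have hadd := Affine.Point.add_of_X_ne (h₁ := h₁) (h₂ := h₂) hab
  have hsub : (Affine.Point.some a y₁ h₁ - Affine.Point.some b y₂ h₂ : W.Point) =
      Affine.Point.some _ _ (Affine.nonsingular_add h₁ ((Affine.nonsingular_neg ..).mpr h₂)
        fun hxy => hab hxy.left) := by
    rw [sub_eq_add_neg, Affine.Point.neg_some, Affine.Point.add_of_X_ne hab]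
  refine ⟨_, _, ⟨_, _, hadd⟩, ⟨_, _, hsub⟩, ?_, ?_⟩
  all_goals
    have e₁ := (Affine.equation_iff _ _).mp h₁.left
    have e₂ := (Affine.equation_iff _ _).mp h₂.left
    have hne : a - b ≠ 0 := sub_ne_zero.mpr hab
    simp only [Affine.addX, Affine.slope_of_X_ne hab, Affine.negY, sumForm, prodForm,
      WeierstrassCurve.b₂, WeierstrassCurve.b₄, WeierstrassCurve.b₆, WeierstrassCurve.b₈]
    field_simp
  · linear_combination 2 * e₁ + 2 * e₂
  · linear_combination (norm := ring1)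
      ((2 * (a ^ 3 - b ^ 3) + 2 * W.a₂ * (a ^ 2 - b ^ 2) +
          (2 * W.a₄ + W.a₁ * W.a₃) * (a - b) + W.a₁ ^ 2 * b * (a - b) -
          2 * (W.a₂ + a + b) * (a - b) ^ 2 +
          (y₁ ^ 2 + W.a₁ * a * y₁ + W.a₃ * y₁ - (a ^ 3 + W.a₂ * a ^ 2 + W.a₄ * a + W.a₆)) -
          (y₂ ^ 2 + W.a₁ * b * y₂ + W.a₃ * y₂ - (b ^ 3 + W.a₂ * b ^ 2 + W.a₄ * b + W.a₆))) * e₁ +
        (-(2 * (a ^ 3 - b ^ 3) + 2 * W.a₂ * (a ^ 2 - b ^ 2) +
          (2 * W.a₄ + W.a₁ * W.a₃) * (a - b)) - W.a₁ ^ 2 * a * (a - b) -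
          2 * (W.a₂ + a + b) * (a - b) ^ 2 -
          (y₁ ^ 2 + W.a₁ * a * y₁ + W.a₃ * y₁ - (a ^ 3 + W.a₂ * a ^ 2 + W.a₄ * a + W.a₆)) +
          (y₂ ^ 2 + W.a₁ * b * y₂ + W.a₃ * y₂ - (b ^ 3 + W.a₂ * b ^ 2 + W.a₄ * b + W.a₆))) * e₂)

lemma two_nsmul_eq_zero_iff {B : W.Point} {b : F} (hB : HasX B b) :
    (2 : ℕ) • B = 0 ↔ dupDen W b 1 = 0 := by
  obtain ⟨y, h, rfl⟩ := hB
  rw [← psi_sq_of_equation h.left, sq_eq_zero_iff, two_nsmul]
  by_cases hy : y = W.negY b y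
  · refine iff_of_true (Affine.Point.add_self_of_Y_eq hy) ?_
    rw [Affine.negY] at hy
    linear_combination hy
  · refine iff_of_false ?_ ?_
    · rw [Affine.Point.add_self_of_Y_ne hy]
      exact Affine.Point.some_ne_zero _
    · rw [Affine.negY] at hy
      contrapose! hy
      linear_combination hy

/-- Duplication. -/
theorem exists_hasX_two_nsmul {B : W.Point} {b : F} (hB : HasX B b) (hb : dupDen W b 1 ≠ 0) :
    ∃ s, HasX ((2 : ℕ) • B) s ∧ s * dupDen W b 1 = dupNum W b 1 := by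
  obtain ⟨y, h, rfl⟩ := hB
  have e := (Affine.equation_iff _ _).mp h.left
  rw [← psi_sq_of_equation h.left, sq] at hb
  have hy : y ≠ W.negY b y := by
    intro hy
    rw [Affine.negY] at hy
    exact hb (by rw [show 2 * y + W.a₁ * b + W.a₃ = 0 by linear_combination hy, zero_mul])
  refine ⟨_, ⟨_, _, (two_nsmul _).trans (Affine.Point.add_self_of_Y_ne hy)⟩, ?_⟩
  have hd : y - (-y - W.a₁ * b - W.a₃) = 2 * y + W.a₁ * b + W.a₃ := by ring
  rw [← psi_sq_of_equation h.left, Affine.slope_of_Y_ne rfl hy, Affine.addX, Affine.negY, hd]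
  generalize hψ : 2 * y + W.a₁ * b + W.a₃ = ψ at hb ⊢
  have hψ0 : ψ ≠ 0 := left_ne_zero_of_mul hb
  simp only [dupNum, WeierstrassCurve.b₄, WeierstrassCurve.b₆, WeierstrassCurve.b₈]
  field_simp
  subst hψ
  linear_combination (norm := ring1) -(W.a₁ ^ 2 + 4 * W.a₂ + 8 * b) * e

end Fermat.Agent.EllTorsion
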